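import Mathlib

/-!
# Inflation–restriction in degree `2` (Project C, Layer A)

For `A : Rep k G` and a normal subgroup `S ≤ G` such that `H¹(S, A) = 0` (in the elementwise form
`H1Vanishes A S`: every `1`-cocycle `S → A` is a coboundary), the sequence

`0 ⟶ H²(G ⧸ S, A^S) ⟶ H²(G, A) ⟶ H²(S, A)`

of Mathlib's `groupCohomology` (inflation, then restriction) is exact.  This mirrors Mathlib's
`groupCohomology.H1InfRes` / `H1InfRes_exact` one degree up, with an explicit cocycle computation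
(no spectral sequence, no dimension shifting).

Main declarations (namespace `Fermat.Agent.CFT.InfRes2`):

* `H1Vanishes A S`, `h1Vanishes_of_subsingleton`, `h1Vanishes_of_isZero`, `subsingleton_H1_of_h1Vanishes`;
* `inf₂ A S`, `res₂ A S`, `H2InfRes A S : ShortComplex (ModuleCat k)`;
* `inf₂_injective`, `exists_inf₂_eq_of_res₂_eq_zero`, `res₂_eq_zero_iff`, `mono_H2InfRes_f`,
  `H2InfRes_exact`;
* cocycle-level forms `exists_inf_of_res_mem_coboundaries₂`, `mem_coboundaries₂_of_inf_mem`,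
  `exists_descent`;
* cardinalities: `card_H2_eq`, `card_H2_dvd`, `finite_H2`, `card_H2_le`;
* `map₂_one`: pulling back along the trivial homomorphism kills `H²`.
-/

set_option autoImplicit false

noncomputable section

namespace Fermat.Agent.CFT.InfRes2

open groupCohomology CategoryTheory Rep

universe u

variable {k G : Type u} [CommRing k] [Group G] {A : Rep.{u} k G}

/-- The cocycle identity, in subtraction form. -/
theorem coc {φ : G × G → A} (hφ : φ ∈ cocycles₂ A) (g h j : G) :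
    A.ρ g (φ (h, j)) - φ (g * h, j) + φ (g, h * j) - φ (g, h) = 0 :=
  (mem_cocycles₂_def φ).1 hφ g h j

variable (S : Subgroup G) [S.Normal]

/-- `φ` vanishes on `S × S`. -/
def VanishesOn (φ : G × G → A) : Prop := ∀ s t : G, s ∈ S → t ∈ S → φ (s, t) = 0

/-- The function `m ↦ φ (g, g⁻¹ m g) - φ (m, g)` on `S`. -/
def uFun (φ : G × G → A) (g : G) : S → A := fun m => φ (g, g⁻¹ * m * g) - φ ((m : G), g)

variable {S}

theorem conj_mem' {m : G} (hm : m ∈ S) (g : G) : g⁻¹ * m * g ∈ S :=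
  Subgroup.Normal.conj_mem' ‹S.Normal› m hm g

/-- **Lemma U**: `uFun φ g` is a `1`-cocycle on `S`. -/
theorem uFun_mul {φ : G × G → A} (hφ : φ ∈ cocycles₂ A) (h0 : VanishesOn S φ) (g : G)
    (m m' : S) :
    uFun S φ g (m * m') = A.ρ (m : G) (uFun S φ g m') + uFun S φ g m := by
  unfold uFun
  have e1 := coc hφ g (g⁻¹ * m * g) (g⁻¹ * m' * g)
  have e2 := coc hφ (m : G) g (g⁻¹ * m' * g)
  have e3 := coc hφ (m : G) (m' : G) g
  have z1 : φ (g⁻¹ * ↑m * g, g⁻¹ * ↑m' * g) = 0 := h0 _ _ (conj_mem' m.2 g) (conj_mem' m'.2 g)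
  have z2 : φ ((m : G), (m' : G)) = 0 := h0 _ _ m.2 m'.2
  have c1 : g * (g⁻¹ * ↑m * g) = ↑m * g := by group
  have c2 : g⁻¹ * ↑m * g * (g⁻¹ * ↑m' * g) = g⁻¹ * (↑m * ↑m') * g := by group
  have c3 : g * (g⁻¹ * ↑m' * g) = ↑m' * g := by group
  rw [z1, c1, c2, map_zero] at e1
  rw [c3] at e2
  rw [z2] at e3
  rw [map_sub]
  push_cast
  linear_combination (norm := abel) e1 - e2 + e3

/-- **Lemma V**: if `a` solves `m a - a = uFun φ g m`, then `a + φ (g, n)` solves the equation
for `g * n`, `n ∈ S`. -/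
theorem uFun_mul_right {φ : G × G → A} (hφ : φ ∈ cocycles₂ A) (h0 : VanishesOn S φ) (g : G)
    {a : A} (ha : ∀ m : S, A.ρ (m : G) a - a = uFun S φ g m) {n : G} (hn : n ∈ S) (m : S) :
    A.ρ (m : G) (a + φ (g, n)) - (a + φ (g, n)) = uFun S φ (g * n) m := by
  have ham := ha m
  unfold uFun at ham ⊢
  have f1 := coc hφ (m : G) g n
  have f2 := coc hφ g (g⁻¹ * m * g) n
  have f3 := coc hφ g n (n⁻¹ * (g⁻¹ * m * g) * n)
  have z2 : φ (g⁻¹ * ↑m * g, n) = 0 := h0 _ _ (conj_mem' m.2 g) hn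
  have z3 : φ (n, n⁻¹ * (g⁻¹ * ↑m * g) * n) = 0 := h0 _ _ hn (conj_mem' (conj_mem' m.2 g) n)
  have c2 : g * (g⁻¹ * ↑m * g) = ↑m * g := by group
  have c3 : n * (n⁻¹ * (g⁻¹ * ↑m * g) * n) = g⁻¹ * ↑m * g * n := by group
  have c4 : (g * n)⁻¹ * ↑m * (g * n) = n⁻¹ * (g⁻¹ * ↑m * g) * n := by group
  rw [z2, c2, map_zero] at f2
  rw [z3, c3, map_zero] at f3
  rw [c4, map_add]
  linear_combination (norm := abel) ham + f1 - f2 + f3


variable (A S) in
/-- Elementwise form of `H¹(S, A) = 0`: every `1`-cocycle `S → A` is a coboundary. -/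
def H1Vanishes : Prop :=
  ∀ f : S → A, (∀ m m' : S, f (m * m') = A.ρ (m : G) (f m') + f m) →
    ∃ a : A, ∀ m : S, f m = A.ρ (m : G) a - a

omit [S.Normal] in
theorem h1Vanishes_of_subsingleton [Subsingleton (H1 (res S.subtype A))] : H1Vanishes A S := by
  intro f hf
  have hf' : f ∈ cocycles₁ (res S.subtype A) := (mem_cocycles₁_iff _).2 fun m m' => hf m m'
  have h0 : H1π (res S.subtype A) ⟨f, hf'⟩ = 0 := Subsingleton.elim _ _
  obtain ⟨a, ha⟩ := (H1π_eq_zero_iff _).1 h0
  exact ⟨a, fun m => (congr_fun ha m).symm⟩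

omit [S.Normal] in
theorem h1Vanishes_of_isZero (h : Limits.IsZero (H1 (res S.subtype A))) : H1Vanishes A S := by
  have : Subsingleton (H1 (res S.subtype A)) := ModuleCat.subsingleton_of_isZero h
  exact h1Vanishes_of_subsingleton

omit [S.Normal] in
theorem subsingleton_H1_of_h1Vanishes (hS : H1Vanishes A S) :
    Subsingleton (H1 (res S.subtype A)) := by
  refine subsingleton_of_forall_eq 0 fun x => ?_
  induction x using H1_induction_on with | @h f =>
  obtain ⟨a, ha⟩ := hS f fun m m' => (mem_cocycles₁_iff f).1 f.2 m m'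
  exact (H1π_eq_zero_iff _).2 ⟨a, funext fun m => (ha m).symm⟩

/-- Under `H¹(S, A) = 0`, a `2`-cocycle vanishing on `S × S` admits a `1`-cochain `χ` with
`m χ(g) - χ(g) = φ(g, g⁻¹ m g) - φ(m, g)` and `χ(g n) = χ(g) + φ(g, n)` for `m, n ∈ S`. -/
theorem exists_cochain (hS : H1Vanishes A S) {φ : G × G → A} (hφ : φ ∈ cocycles₂ A)
    (h0 : VanishesOn S φ) :
    ∃ χ : G → A, (∀ (g : G) (m : S), A.ρ (m : G) (χ g) - χ g = uFun S φ g m) ∧
      (∀ (g n : G), n ∈ S → χ (g * n) = χ g + φ (g, n)) := by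
  classical
  have hex : ∀ g : G, ∃ a : A, ∀ m : S, A.ρ (m : G) a - a = uFun S φ g m := fun g => by
    obtain ⟨a, ha⟩ := hS (uFun S φ g) (uFun_mul hφ h0 g)
    exact ⟨a, fun m => (ha m).symm⟩
  choose aOf haOf using hex
  -- coset representatives
  let r : G → G := fun g => Quotient.out (QuotientGroup.mk g : G ⧸ S)
  have hr : ∀ g, (r g)⁻¹ * g ∈ S := fun g => by
    have : (QuotientGroup.mk (r g) : G ⧸ S) = QuotientGroup.mk g := Quotient.out_eq _
    exact QuotientGroup.eq.1 this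
  have hrn : ∀ g n, n ∈ S → r (g * n) = r g := fun g n hn => by
    have : (QuotientGroup.mk (g * n) : G ⧸ S) = QuotientGroup.mk g := by
      rw [QuotientGroup.eq]; simpa using S.inv_mem hn
    simp only [r, this]
  refine ⟨fun g => aOf (r g) + φ (r g, (r g)⁻¹ * g), fun g m => ?_, fun g n hn => ?_⟩
  · have := uFun_mul_right hφ h0 (r g) (haOf (r g)) (hr g) m
    rwa [mul_inv_cancel_left] at this
  · have e := coc hφ (r g) ((r g)⁻¹ * g) n
    have z : φ ((r g)⁻¹ * g, n) = 0 := h0 _ _ (hr g) hn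
    have c1 : r g * ((r g)⁻¹ * g) = g := mul_inv_cancel_left _ _
    have c2 : (r g)⁻¹ * g * n = (r g)⁻¹ * (g * n) := mul_assoc _ _ _
    rw [z, c1, map_zero, c2] at e
    simp only [hrn g n hn]
    linear_combination (norm := abel) e


/-- `twist φ χ = φ + d χ`, written out. -/
def twist (φ : G × G → A) (χ : G → A) : G × G → A :=
  fun p => φ p + (A.ρ p.1 (χ p.2) - χ (p.1 * p.2) + χ p.1)

omit [S.Normal] in
theorem twist_eq (φ : G × G → A) (χ : G → A) : twist φ χ = φ + (d₁₂ A).hom χ := rfl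

theorem twist_mem {φ : G × G → A} (hφ : φ ∈ cocycles₂ A) (χ : G → A) :
    twist φ χ ∈ cocycles₂ A := by
  rw [twist_eq]
  exact Submodule.add_mem _ hφ (d₁₂_apply_mem_cocycles₂ χ)

omit [S.Normal] in
/-- (I): the twisted cocycle is right-`S`-invariant in the second variable. -/
theorem twist_snd {φ : G × G → A} (hφ : φ ∈ cocycles₂ A) {χ : G → A}
    (h2 : ∀ (g n : G), n ∈ S → χ (g * n) = χ g + φ (g, n)) (g h n : G) (hn : n ∈ S) :
    twist φ χ (g, h * n) = twist φ χ (g, h) := by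
  unfold twist
  have e := coc hφ g h n
  have c : g * (h * n) = g * h * n := (mul_assoc _ _ _).symm
  simp only [c, h2 _ _ hn, map_add]
  linear_combination (norm := abel) e

/-- (II): the twisted cocycle is right-`S`-invariant in the first variable. -/
theorem twist_fst {φ : G × G → A} (hφ : φ ∈ cocycles₂ A) {χ : G → A}
    (h1 : ∀ (g : G) (m : S), A.ρ (m : G) (χ g) - χ g = uFun S φ g m)
    (h2 : ∀ (g n : G), n ∈ S → χ (g * n) = χ g + φ (g, n)) (g h n : G) (hn : n ∈ S) :
    twist φ χ (g * n, h) = twist φ χ (g, h) := by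
  unfold twist
  have e1 := coc hφ g n h
  have e2 := coc hφ g h (h⁻¹ * n * h)
  have hn' : h⁻¹ * n * h ∈ S := conj_mem' hn h
  have c : g * n * h = g * h * (h⁻¹ * n * h) := by group
  have c2 : h * (h⁻¹ * n * h) = n * h := by group
  have u := h1 h ⟨n, hn⟩
  unfold uFun at u
  simp only [] at u
  rw [c2] at e2
  simp only [c, h2 _ _ hn, h2 _ _ hn', map_mul, Module.End.mul_apply]
  have u' := congrArg (A.ρ g) u
  rw [map_sub, map_sub] at u'
  linear_combination (norm := abel) u' - e1 + e2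


/-- (III): the twisted cocycle takes `S`-invariant values. -/
theorem twist_inv {φ : G × G → A} (hφ : φ ∈ cocycles₂ A) {χ : G → A}
    (h1 : ∀ (g : G) (m : S), A.ρ (m : G) (χ g) - χ g = uFun S φ g m)
    (h2 : ∀ (g n : G), n ∈ S → χ (g * n) = χ g + φ (g, n)) (g h n : G) (hn : n ∈ S) :
    A.ρ n (twist φ χ (g, h)) = twist φ χ (g, h) := by
  have hc := twist_mem hφ χ
  have e := coc hc n g h
  have a1 : twist φ χ (n * g, h) = twist φ χ (g, h) := by
    have : n * g = g * (g⁻¹ * n * g) := by group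
    rw [this]; exact twist_fst hφ h1 h2 g h _ (conj_mem' hn g)
  have a2 : ∀ x, twist φ χ (n, x) = twist φ χ (1, 1) := fun x => by
    have : twist φ χ (1 * n, x) = twist φ χ (1, x) := twist_fst hφ h1 h2 1 x n hn
    rw [one_mul] at this
    rw [this]; exact cocycles₂_map_one_fst ⟨_, hc⟩ x
  rw [a1, a2, a2] at e
  linear_combination (norm := abel) e

variable (A S) in
/-- The inflation map on `2`-cocycles. -/
abbrev infCocycles₂ :
    ModuleCat.of k (cocycles₂ (A.quotientToInvariants S)) ⟶ ModuleCat.of k (cocycles₂ A) :=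
  mapCocycles₂ (QuotientGroup.mk' S) (ofHom <| A.ρ.quotientToInvariants_lift S)

theorem infCocycles₂_apply (ψ : cocycles₂ (A.quotientToInvariants S)) (g h : G) :
    (infCocycles₂ A S ψ) (g, h) = ((ψ ((g : G ⧸ S), (h : G ⧸ S)) : _) : A) := rfl

/-- Descent: a `2`-cocycle which is right-`S`-invariant in both variables and has `S`-invariant
values is inflated from `G ⧸ S`. -/
theorem exists_descent {φ : G × G → A} (hφ : φ ∈ cocycles₂ A)
    (hI : ∀ g h n : G, n ∈ S → φ (g, h * n) = φ (g, h))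
    (hII : ∀ g h n : G, n ∈ S → φ (g * n, h) = φ (g, h))
    (hIII : ∀ g h n : G, n ∈ S → A.ρ n (φ (g, h)) = φ (g, h)) :
    ∃ ψ : cocycles₂ (A.quotientToInvariants S), infCocycles₂ A S ψ = ⟨φ, hφ⟩ := by
  let ψ : (G ⧸ S) × (G ⧸ S) → (A.quotientToInvariants S) := fun p =>
    Quotient.liftOn₂' p.1 p.2 (fun g h => ⟨φ (g, h), fun s => hIII g h s s.2⟩)
      (fun a₁ a₂ b₁ b₂ hab₁ hab₂ => Subtype.ext <| by
        have h1 : a₁⁻¹ * b₁ ∈ S := QuotientGroup.leftRel_apply.1 hab₁
        have h2 : a₂⁻¹ * b₂ ∈ S := QuotientGroup.leftRel_apply.1 hab₂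
        have e1 : b₁ = a₁ * (a₁⁻¹ * b₁) := (mul_inv_cancel_left _ _).symm
        have e2 : b₂ = a₂ * (a₂⁻¹ * b₂) := (mul_inv_cancel_left _ _).symm
        change φ (a₁, a₂) = φ (b₁, b₂)
        rw [e1, e2, hII _ _ _ h1, hI _ _ _ h2])
  have hψ : ψ ∈ cocycles₂ (A.quotientToInvariants S) := by
    rw [mem_cocycles₂_def]
    intro g h j
    induction g using QuotientGroup.induction_on with | @H g =>
    induction h using QuotientGroup.induction_on with | @H h =>
    induction j using QuotientGroup.induction_on with | @H j =>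
    apply Subtype.ext
    have := coc hφ g h j
    simpa [ψ, ← QuotientGroup.mk_mul] using this
  exact ⟨⟨ψ, hψ⟩, Subtype.ext <| funext fun p => rfl⟩


omit [S.Normal] in
theorem twist_sub (φ : G × G → A) (χ : G → A) : twist φ χ - φ = (d₁₂ A).hom χ := by
  rw [twist_eq]; abel

variable (A S) in
/-- The restriction map on `2`-cocycles. -/
abbrev resCocycles₂ :
    ModuleCat.of k (cocycles₂ A) ⟶ ModuleCat.of k (cocycles₂ (res S.subtype A)) :=
  mapCocycles₂ S.subtype (𝟙 (res S.subtype A))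

omit [S.Normal] in
theorem resCocycles₂_apply (x : cocycles₂ A) (s t : S) :
    (resCocycles₂ A S x) (s, t) = x ((s : G), (t : G)) := rfl

/-- **Exactness at cocycle level**: under `H¹(S, A) = 0`, a `2`-cocycle whose restriction to `S`
is a coboundary is cohomologous to an inflated cocycle. -/
theorem exists_inf_of_res_mem_coboundaries₂ (hS : H1Vanishes A S) (x : cocycles₂ A)
    (hx : ⇑(resCocycles₂ A S x) ∈ coboundaries₂ (res S.subtype A)) :
    ∃ ψ : cocycles₂ (A.quotientToInvariants S), H2π A (infCocycles₂ A S ψ) = H2π A x := by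
  classical
  obtain ⟨β, hβ⟩ := hx
  have hβ' : ∀ s t : S, A.ρ (s : G) (β t) - β (s * t) + β s = x ((s : G), (t : G)) :=
    fun s t => congr_fun hβ (s, t)
  -- extend `β` by zero
  let β' : G → A := fun g => if h : g ∈ S then β ⟨g, h⟩ else 0
  have hβS : ∀ s : S, β' (s : G) = β s := fun s => by simp [β']
  let φ₁ : G × G → A := twist x (-β')
  have hφ₁ : φ₁ ∈ cocycles₂ A := twist_mem x.2 _
  have h0 : VanishesOn S φ₁ := by
    intro s t hs ht
    have := hβ' ⟨s, hs⟩ ⟨t, ht⟩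
    have e1 := hβS ⟨s, hs⟩
    have e2 := hβS ⟨t, ht⟩
    have e3 := hβS (⟨s, hs⟩ * ⟨t, ht⟩)
    simp only [Subgroup.coe_mul] at e1 e2 e3 this
    simp only [φ₁, twist, Pi.neg_apply, map_neg, e1, e2, e3]
    linear_combination (norm := abel) -this
  obtain ⟨χ, h1, h2⟩ := exists_cochain hS hφ₁ h0
  obtain ⟨ψ, hψ⟩ := exists_descent (twist_mem hφ₁ χ) (twist_snd hφ₁ h2) (twist_fst hφ₁ h1 h2)
    (twist_inv hφ₁ h1 h2)
  refine ⟨ψ, ?_⟩
  rw [hψ, H2π_eq_iff]
  refine ⟨-β' + χ, ?_⟩
  change _ = twist φ₁ χ - ⇑x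
  have e1 : twist φ₁ χ - φ₁ = _ := twist_sub φ₁ χ
  have e2 : φ₁ - ⇑x = _ := twist_sub (⇑x) (-β')
  rw [map_add, ← e1, ← e2]
  abel

/-- **Injectivity at cocycle level**: under `H¹(S, A) = 0`, a `2`-cocycle of `G ⧸ S` whose
inflation is a coboundary is a coboundary. -/
theorem mem_coboundaries₂_of_inf_mem (hS : H1Vanishes A S)
    (ψ : cocycles₂ (A.quotientToInvariants S))
    (h : ⇑(infCocycles₂ A S ψ) ∈ coboundaries₂ A) :
    ⇑ψ ∈ coboundaries₂ (A.quotientToInvariants S) := by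
  obtain ⟨β, hβ⟩ := h
  have hβ' : ∀ g h : G, A.ρ g (β h) - β (g * h) + β g = ((ψ ((g : G ⧸ S), (h : G ⧸ S)) : _) : A) :=
    fun g h => congr_fun hβ (g, h)
  have hc : ∀ s ∈ S, A.ρ s ((ψ (1, 1) : _) : A) = ((ψ (1, 1) : _) : A) :=
    fun s hs => (ψ (1, 1)).2 ⟨s, hs⟩
  have hone : ∀ s ∈ S, ((s : G) : G ⧸ S) = 1 := fun s hs => (QuotientGroup.eq_one_iff s).2 hs
  obtain ⟨a, ha⟩ := hS (fun s => β s - ((ψ (1, 1) : _) : A)) (fun m m' => by
    have := hβ' m m'
    rw [hone _ m.2, hone _ m'.2] at this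
    have hcm := hc _ m.2
    simp only [Subgroup.coe_mul, map_sub, hcm]
    linear_combination (norm := abel) -this)
  let β₁ : G → A := fun g => β g - (A.ρ g a - a)
  have hβ₁ : ∀ g h : G, A.ρ g (β₁ h) - β₁ (g * h) + β₁ g =
      ((ψ ((g : G ⧸ S), (h : G ⧸ S)) : _) : A) := by
    intro g h
    simp only [β₁, map_sub, map_mul, Module.End.mul_apply]
    linear_combination (norm := abel) hβ' g h
  have hβ₁S : ∀ s ∈ S, β₁ s = ((ψ (1, 1) : _) : A) := by
    intro s hs
    have := ha ⟨s, hs⟩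
    simp only [β₁]
    linear_combination (norm := abel) this
  have hβ₁r : ∀ g s : G, s ∈ S → β₁ (g * s) = β₁ g := by
    intro g s hs
    have e := hβ₁ g s
    rw [hone s hs, cocycles₂_map_one_snd ψ (g : G ⧸ S), hβ₁S s hs] at e
    have : (((A.quotientToInvariants S).ρ (g : G ⧸ S) (ψ (1, 1)) : _) : A)
        = A.ρ g ((ψ (1, 1) : _) : A) := rfl
    rw [this] at e
    linear_combination (norm := abel) -e
  have hβ₁i : ∀ g s : G, s ∈ S → A.ρ s (β₁ g) = β₁ g := by
    intro g s hs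
    have e := hβ₁ s g
    rw [hone s hs, cocycles₂_map_one_fst ψ (g : G ⧸ S), hβ₁S s hs] at e
    have c : s * g = g * (g⁻¹ * s * g) := by group
    rw [c, hβ₁r _ _ (conj_mem' hs g)] at e
    linear_combination (norm := abel) e
  let βq : G ⧸ S → (A.quotientToInvariants S) := fun q =>
    Quotient.liftOn' q (fun g => ⟨β₁ g, fun s => hβ₁i g s s.2⟩)
      (fun a b hab => Subtype.ext <| by
        have h1 : a⁻¹ * b ∈ S := QuotientGroup.leftRel_apply.1 hab
        have e1 : b = a * (a⁻¹ * b) := (mul_inv_cancel_left _ _).symm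
        change β₁ a = β₁ b
        rw [e1, hβ₁r _ _ h1])
  refine ⟨βq, funext fun p => ?_⟩
  obtain ⟨g, h⟩ := p
  induction g using QuotientGroup.induction_on with | @H g =>
  induction h using QuotientGroup.induction_on with | @H h =>
  apply Subtype.ext
  have := hβ₁ g h
  simpa [βq, ← QuotientGroup.mk_mul] using this


omit [S.Normal] in
/-- Pulling back along the trivial homomorphism kills `H²`. -/
theorem map₂_one {H : Type u} [Group H] {B : Rep.{u} k H} {C : Rep.{u} k G}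
    (φ : res (1 : G →* H) B ⟶ C) : map (1 : G →* H) φ 2 = 0 := by
  rw [← cancel_epi (H2π _), H2π_comp_map, Limits.comp_zero]
  ext x
  refine (H2π_eq_zero_iff _).2 ⟨fun _ => φ.hom (x (1, 1)), funext fun p => ?_⟩
  have h : C.ρ p.1 (φ.hom (x (1, 1))) = φ.hom (x (1, 1)) := by
    have h' := hom_comm_apply φ p.1 (x (1, 1))
    rw [coe_res_obj_ρ', MonoidHom.one_apply, map_one, Module.End.one_apply] at h'
    exact h'.symm
  change C.ρ p.1 (φ.hom (x (1, 1))) - φ.hom (x (1, 1)) + φ.hom (x (1, 1)) = φ.hom (x (1, 1))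
  rw [h]; abel

variable (A S) in
/-- The short complex `H²(G ⧸ S, A^S) ⟶ H²(G, A) ⟶ H²(S, A)`. -/
def H2InfRes : ShortComplex (ModuleCat k) where
  X₁ := groupCohomology (A.quotientToInvariants S) 2
  X₂ := groupCohomology A 2
  X₃ := groupCohomology (res S.subtype A) 2
  f := map (QuotientGroup.mk' S) (ofHom <| A.ρ.quotientToInvariants_lift S) 2
  g := map S.subtype (𝟙 _) 2
  zero := by rw [← map_comp, Category.comp_id, groupCohomology.congr (QuotientGroup.mk'_comp_subtype S)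
    (fun f φ => map f φ 2), map₂_one]


variable (A S) in
/-- The inflation map `H²(G ⧸ S, A^S) ⟶ H²(G, A)`. -/
abbrev inf₂ : groupCohomology (A.quotientToInvariants S) 2 ⟶ groupCohomology A 2 :=
  map (QuotientGroup.mk' S) (ofHom <| A.ρ.quotientToInvariants_lift S) 2

variable (A S) in
/-- The restriction map `H²(G, A) ⟶ H²(S, A)`. -/
abbrev res₂ : groupCohomology A 2 ⟶ groupCohomology (res S.subtype A) 2 :=
  map S.subtype (𝟙 _) 2

theorem H2InfRes_f : (H2InfRes A S).f = inf₂ A S := rfl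

theorem H2InfRes_g : (H2InfRes A S).g = res₂ A S := rfl

theorem inf₂_H2π (ψ : cocycles₂ (A.quotientToInvariants S)) :
    inf₂ A S (H2π _ ψ) = H2π A (infCocycles₂ A S ψ) :=
  H2π_comp_map_apply (QuotientGroup.mk' S) _ ψ

omit [S.Normal] in
theorem res₂_H2π (x : cocycles₂ A) :
    res₂ A S (H2π _ x) = H2π _ (resCocycles₂ A S x) :=
  H2π_comp_map_apply S.subtype _ x

theorem res₂_inf₂ (y : groupCohomology (A.quotientToInvariants S) 2) :
    res₂ A S (inf₂ A S y) = 0 := by
  have := (H2InfRes A S).zero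
  exact congr($this y)

/-- Under `H¹(S, A) = 0`, inflation `H²(G ⧸ S, A^S) ⟶ H²(G, A)` is injective. -/
theorem inf₂_injective (hS : H1Vanishes A S) : Function.Injective (inf₂ A S) := by
  rw [injective_iff_map_eq_zero]
  intro y hy
  induction y using H2_induction_on with | @h ψ =>
  rw [inf₂_H2π, H2π_eq_zero_iff] at hy
  exact (H2π_eq_zero_iff _).2 (mem_coboundaries₂_of_inf_mem hS ψ hy)

/-- Under `H¹(S, A) = 0`, the kernel of restriction `H²(G, A) ⟶ H²(S, A)` is the image of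
inflation. -/
theorem exists_inf₂_eq_of_res₂_eq_zero (hS : H1Vanishes A S) (x : groupCohomology A 2)
    (hx : res₂ A S x = 0) : ∃ y, inf₂ A S y = x := by
  induction x using H2_induction_on with | @h x =>
  rw [res₂_H2π, H2π_eq_zero_iff] at hx
  obtain ⟨ψ, hψ⟩ := exists_inf_of_res_mem_coboundaries₂ hS x hx
  exact ⟨H2π _ ψ, by rw [inf₂_H2π, hψ]⟩

theorem res₂_eq_zero_iff (hS : H1Vanishes A S) (x : groupCohomology A 2) :
    res₂ A S x = 0 ↔ ∃ y, inf₂ A S y = x :=
  ⟨exists_inf₂_eq_of_res₂_eq_zero hS x, fun ⟨y, hy⟩ => hy ▸ res₂_inf₂ y⟩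

/-- Under `H¹(S, A) = 0`, the inflation map `H²(G ⧸ S, A^S) ⟶ H²(G, A)` is a monomorphism. -/
theorem mono_H2InfRes_f (hS : H1Vanishes A S) : Mono (H2InfRes A S).f :=
  (ModuleCat.mono_iff_injective _).2 (inf₂_injective hS)

/-- Under `H¹(S, A) = 0`, the short complex `H²(G ⧸ S, A^S) ⟶ H²(G, A) ⟶ H²(S, A)` is exact. -/
theorem H2InfRes_exact (hS : H1Vanishes A S) : (H2InfRes A S).Exact := by
  rw [ShortComplex.moduleCat_exact_iff_ker_sub_range]
  intro x hx
  obtain ⟨y, hy⟩ := exists_inf₂_eq_of_res₂_eq_zero hS x (LinearMap.mem_ker.1 hx)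
  exact ⟨y, hy⟩

/-- Generalities: an exact sequence `0 → X₁ → X₂ → X₃` of additive groups gives
`|X₂| ∣ |X₁| * |X₃|` (with `Nat.card`, which is `0` for infinite types). -/
theorem card_eq_of_exact {X₁ X₂ X₃ : Type*} [AddCommGroup X₁] [AddCommGroup X₂]
    [AddCommGroup X₃] (f : X₁ →+ X₂) (g : X₂ →+ X₃) (hf : Function.Injective f)
    (hfg : ∀ x, g x = 0 ↔ ∃ y, f y = x) :
    Nat.card X₂ = Nat.card X₁ * Nat.card g.range := by
  have h1 : Nat.card X₂ = Nat.card (X₂ ⧸ g.ker) * Nat.card g.ker :=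
    AddSubgroup.card_eq_card_quotient_mul_card_addSubgroup g.ker
  have h2 : Nat.card (X₂ ⧸ g.ker) = Nat.card g.range :=
    Nat.card_congr (QuotientAddGroup.quotientKerEquivRange g).toEquiv
  have h3 : Nat.card g.ker = Nat.card X₁ := by
    have : g.ker = f.range := by
      ext x; rw [AddMonoidHom.mem_ker, hfg, AddMonoidHom.mem_range]
    rw [this]
    exact (Nat.card_congr (Equiv.ofInjective f hf)).symm
  rw [h1, h2, h3, mul_comm]

/-- Under `H¹(S, A) = 0`: `|H²(G, A)| = |H²(G ⧸ S, A^S)| * |im res|`. -/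
theorem card_H2_eq (hS : H1Vanishes A S) :
    Nat.card (groupCohomology A 2) = Nat.card (groupCohomology (A.quotientToInvariants S) 2) *
      Nat.card (res₂ A S).hom.toAddMonoidHom.range :=
  card_eq_of_exact (inf₂ A S).hom.toAddMonoidHom (res₂ A S).hom.toAddMonoidHom
    (inf₂_injective hS) (res₂_eq_zero_iff hS)

/-- Under `H¹(S, A) = 0`: `|H²(G, A)|` divides `|H²(G ⧸ S, A^S)| * |H²(S, A)|`. -/
theorem card_H2_dvd (hS : H1Vanishes A S) :
    Nat.card (groupCohomology A 2) ∣ Nat.card (groupCohomology (A.quotientToInvariants S) 2) *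
      Nat.card (groupCohomology (res S.subtype A) 2) := by
  rw [card_H2_eq hS]
  exact mul_dvd_mul_left _ (AddSubgroup.card_addSubgroup_dvd_card _)

/-- Under `H¹(S, A) = 0`: if `H²(G ⧸ S, A^S)` and `H²(S, A)` are finite then so is `H²(G, A)`. -/
theorem finite_H2 (hS : H1Vanishes A S) [Finite (groupCohomology (A.quotientToInvariants S) 2)]
    [Finite (groupCohomology (res S.subtype A) 2)] : Finite (groupCohomology A 2) := by
  apply Nat.finite_of_card_ne_zero
  rw [card_H2_eq hS]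
  exact Nat.mul_ne_zero Nat.card_pos.ne' Nat.card_pos.ne'

/-- Under `H¹(S, A) = 0` and finiteness: `|H²(G, A)| ≤ |H²(G ⧸ S, A^S)| * |H²(S, A)|`. -/
theorem card_H2_le (hS : H1Vanishes A S) [Finite (groupCohomology (A.quotientToInvariants S) 2)]
    [Finite (groupCohomology (res S.subtype A) 2)] :
    Nat.card (groupCohomology A 2) ≤ Nat.card (groupCohomology (A.quotientToInvariants S) 2) *
      Nat.card (groupCohomology (res S.subtype A) 2) :=
  Nat.le_of_dvd (Nat.mul_pos Nat.card_pos Nat.card_pos) (card_H2_dvd hS)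

end Fermat.Agent.CFT.InfRes2
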