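import Mathlib
import Fermat.Agent.CFT.InfRes2
import Fermat.Agent.CFT.A1.Sylow

/-!
# Class-formation dévissage (Project C, Layer A)

Let `P` be a class of pairs `(G, A)` (`G` a group, `A : Rep k G`) closed under restriction to
subgroups, `(G, A) ↦ (S, A|_S)`, and under passing to quotients, `(G, A) ↦ (G ⧸ S, A^S)`.  If for
every pair in `P` with `|G|` prime one has `H¹(G, A) = 0` and `|H²(G, A)| ∣ |G|`, then the same
holds for every pair in `P` with `G` finite:

* `devissage`: `G` finite solvable (induction on `|G|` via a proper nontrivial normal subgroup,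
  using Mathlib's `H1InfRes_exact` and `InfRes2.card_H2_dvd`);
* `devissage_finite`: `G` finite (Sylow reduction via `A1.eq_zero_of_rest_sylow_eq_zero`).

Also: `subsingleton_H1_of_subsingleton`, `subsingleton_H2_of_subsingleton` (cohomology of the
trivial group), `subsingleton_H1_of_normal`.
-/

set_option autoImplicit false

noncomputable section

namespace Fermat.Agent.CFT.Devissage

open groupCohomology CategoryTheory Rep
open Fermat.Agent.CFT.InfRes2

universe u

variable {k : Type u} [CommRing k]

/-- `H¹` of the trivial group vanishes. -/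
theorem subsingleton_H1_of_subsingleton {G : Type u} [Group G] [Subsingleton G]
    (A : Rep.{u} k G) : Subsingleton (groupCohomology A 1) := by
  refine subsingleton_of_forall_eq 0 fun x => ?_
  induction x using H1_induction_on with | @h f =>
  refine (H1π_eq_zero_iff _).2 ⟨0, funext fun g => ?_⟩
  have hg : g = 1 := Subsingleton.elim _ _
  rw [hg, cocycles₁_map_one]
  simp

/-- `H²` of the trivial group vanishes. -/
theorem subsingleton_H2_of_subsingleton {G : Type u} [Group G] [Subsingleton G]
    (A : Rep.{u} k G) : Subsingleton (groupCohomology A 2) := by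
  refine subsingleton_of_forall_eq 0 fun x => ?_
  induction x using H2_induction_on with | @h f =>
  refine (H2π_eq_zero_iff _).2 ⟨fun _ => f (1, 1), funext fun p => ?_⟩
  have h1 : p = (1, 1) := Subsingleton.elim _ _
  rw [h1]
  change A.ρ 1 (f (1, 1)) - f (1, 1) + f (1, 1) = f (1, 1)
  simp

/-- If `H¹(G ⧸ S, A^S) = 0` and `H¹(S, A) = 0` then `H¹(G, A) = 0`. -/
theorem subsingleton_H1_of_normal {G : Type u} [Group G] (A : Rep.{u} k G) (S : Subgroup G)
    [S.Normal] (h1 : Subsingleton (groupCohomology (A.quotientToInvariants S) 1))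
    (h3 : Subsingleton (groupCohomology (res S.subtype A) 1)) :
    Subsingleton (groupCohomology A 1) := by
  refine subsingleton_of_forall_eq 0 fun x => ?_
  have hex := H1InfRes_exact A S
  rw [ShortComplex.moduleCat_exact_iff_ker_sub_range] at hex
  have hx : (H1InfRes A S).g.hom x = 0 := @Subsingleton.elim _ h3 _ _
  obtain ⟨y, hy⟩ := hex (show (x : (H1InfRes A S).X₂) ∈ LinearMap.ker (H1InfRes A S).g.hom from hx)
  have hy0 : y = 0 := @Subsingleton.elim _ h1 _ _
  rw [← hy, hy0]
  exact map_zero _

/-- **Dévissage**: let `P` be a class of pairs `(G, A)` closed under restriction to subgroups and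
under passing to `(G ⧸ S, A^S)`, such that for `(G, A)` in `P` with `G` of prime order,
`H¹(G, A) = 0` and `|H²(G, A)|` divides `|G|`.  Then the same holds for every finite solvable
`G`. -/
theorem devissage
    (P : ∀ (G : Type u) [Group G], Rep.{u} k G → Prop)
    (hres : ∀ (G : Type u) [Group G] (A : Rep.{u} k G) (S : Subgroup G),
      P G A → P S (res S.subtype A))
    (hquot : ∀ (G : Type u) [Group G] (A : Rep.{u} k G) (S : Subgroup G) [S.Normal],
      P G A → P (G ⧸ S) (A.quotientToInvariants S))
    (hprime : ∀ (G : Type u) [Group G] (A : Rep.{u} k G), P G A → (Nat.card G).Prime →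
      Subsingleton (groupCohomology A 1) ∧ Nat.card (groupCohomology A 2) ∣ Nat.card G)
    (G : Type u) [Group G] [Finite G] [Group.IsSolvable G] (A : Rep.{u} k G) (hA : P G A) :
    Subsingleton (groupCohomology A 1) ∧ Nat.card (groupCohomology A 2) ∣ Nat.card G := by
  suffices H : ∀ n : ℕ, ∀ (G : Type u) [Group G] [Finite G] [Group.IsSolvable G] (A : Rep.{u} k G),
      P G A → Nat.card G = n →
      Subsingleton (groupCohomology A 1) ∧ Nat.card (groupCohomology A 2) ∣ Nat.card G from
    H _ G A hA rfl
  intro n
  induction n using Nat.strong_induction_on with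
  | _ n ih =>
  intro G _ _ _ A hA hn
  by_cases htriv : Subsingleton G
  · have := subsingleton_H2_of_subsingleton A
    exact ⟨subsingleton_H1_of_subsingleton A, by rw [Nat.card_unique]; exact one_dvd _⟩
  · have hnt : Nontrivial G := not_subsingleton_iff_nontrivial.1 htriv
    by_cases hsimple : IsSimpleGroup G
    · have hcomm := IsSimpleGroup.comm_iff_isSolvable.2 ‹Group.IsSolvable G›
      let _ : CommGroup G := { ‹Group G› with mul_comm := hcomm }
      exact hprime G A hA (IsSimpleGroup.prime_card (α := G))
    · obtain ⟨N, hNn, hNbot, hNtop⟩ : ∃ N : Subgroup G, N.Normal ∧ N ≠ ⊥ ∧ N ≠ ⊤ := by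
        by_contra hcon
        refine hsimple ⟨fun N hN => ?_⟩
        by_contra h
        exact hcon ⟨N, hN, fun hb => h (Or.inl hb), fun ht => h (Or.inr ht)⟩
      have := hNn
      have hcard : Nat.card G = Nat.card (G ⧸ N) * Nat.card N :=
        Subgroup.card_eq_card_quotient_mul_card_subgroup N
      have hN2 : 1 < Nat.card N := N.one_lt_card_iff_ne_bot.2 hNbot
      have hQ2 : 1 < Nat.card (G ⧸ N) := by
        have h1 : N.index ≠ 1 := fun h => hNtop (Subgroup.index_eq_one.1 h)
        have h0 : N.index ≠ 0 := Subgroup.index_ne_zero_of_finite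
        rw [← Subgroup.index_eq_card]
        omega
      have ihN := ih (Nat.card N) (by rw [← hn, hcard]; nlinarith) N (res N.subtype A)
        (hres G A N hA) rfl
      have ihQ := ih (Nat.card (G ⧸ N)) (by rw [← hn, hcard]; nlinarith) (G ⧸ N)
        (A.quotientToInvariants N) (hquot G A N hA) rfl
      have hS : H1Vanishes A N := @h1Vanishes_of_subsingleton _ _ _ _ _ _ ihN.1
      refine ⟨subsingleton_H1_of_normal A N ihQ.1 ihN.1, ?_⟩
      calc Nat.card (groupCohomology A 2)
          ∣ Nat.card (groupCohomology (A.quotientToInvariants N) 2) *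
            Nat.card (groupCohomology (res N.subtype A) 2) := card_H2_dvd hS
        _ ∣ Nat.card (G ⧸ N) * Nat.card N := mul_dvd_mul ihQ.2 ihN.2
        _ = Nat.card G := hcard.symm


/-- **Dévissage, arbitrary finite groups** (Sylow reduction on top of `devissage`). -/
theorem devissage_finite
    (P : ∀ (G : Type u) [Group G], Rep.{u} k G → Prop)
    (hres : ∀ (G : Type u) [Group G] (A : Rep.{u} k G) (S : Subgroup G),
      P G A → P S (res S.subtype A))
    (hquot : ∀ (G : Type u) [Group G] (A : Rep.{u} k G) (S : Subgroup G) [S.Normal],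
      P G A → P (G ⧸ S) (A.quotientToInvariants S))
    (hprime : ∀ (G : Type u) [Group G] (A : Rep.{u} k G), P G A → (Nat.card G).Prime →
      Subsingleton (groupCohomology A 1) ∧ Nat.card (groupCohomology A 2) ∣ Nat.card G)
    (G : Type u) [Group G] [Finite G] (A : Rep.{u} k G) (hA : P G A) :
    Subsingleton (groupCohomology A 1) ∧ Nat.card (groupCohomology A 2) ∣ Nat.card G := by
  classical
  have key : ∀ (p : ℕ) [Fact p.Prime] (Q : Sylow p G),
      Subsingleton (groupCohomology (res (Q : Subgroup G).subtype A) 1) ∧
        Nat.card (groupCohomology (res (Q : Subgroup G).subtype A) 2) ∣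
          Nat.card (Q : Subgroup G) := by
    intro p _ Q
    have : Group.IsNilpotent (Q : Subgroup G) := Q.isPGroup'.isNilpotent
    exact devissage P hres hquot hprime _ _ (hres G A _ hA)
  constructor
  · have h0 := A1.isZero_of_isZero_sylow A 1 (fun p _ => ⟨default, by
      have := (key p default).1
      exact ModuleCat.isZero_of_subsingleton _⟩)
    exact ModuleCat.subsingleton_of_isZero h0
  · set s := (Nat.card G).primeFactors with hs
    have hp : ∀ p : s, Fact (p : ℕ).Prime := fun p => ⟨Nat.prime_of_mem_primeFactors p.2⟩
    let Q : ∀ p : s, Sylow (p : ℕ) G := fun p => default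
    let F : groupCohomology A 2 →+ ∀ p : s, groupCohomology (res (Q p : Subgroup G).subtype A) 2 :=
      AddMonoidHom.pi fun p => (A1.rest (Q p : Subgroup G) A 2).hom.toAddMonoidHom
    have hF : Function.Injective F := by
      rw [injective_iff_map_eq_zero]
      intro x hx
      refine A1.eq_zero_of_rest_sylow_eq_zero A 2 x fun q hq => ?_
      by_cases hqs : q ∈ s
      · exact ⟨Q ⟨q, hqs⟩, congr_fun hx ⟨q, hqs⟩⟩
      · refine ⟨default, ?_⟩
        have hcard : Nat.card ((default : Sylow q G) : Subgroup G) = 1 := by
          rw [Sylow.card_eq_multiplicity, Nat.factorization_eq_zero_of_not_dvd, pow_zero]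
          intro hd
          exact hqs (Nat.mem_primeFactors.2 ⟨hq.out, hd, Nat.card_pos.ne'⟩)
        have hsub : Subsingleton ((default : Sylow q G) : Subgroup G) :=
          (Nat.card_eq_one_iff_unique.1 hcard).1
        have := subsingleton_H2_of_subsingleton
          (res ((default : Sylow q G) : Subgroup G).subtype A)
        exact Subsingleton.elim _ _
    calc Nat.card (groupCohomology A 2)
        ∣ Nat.card (∀ p : s, groupCohomology (res (Q p : Subgroup G).subtype A) 2) :=
          AddSubgroup.card_dvd_of_injective F hF
      _ = ∏ p : s, Nat.card (groupCohomology (res (Q p : Subgroup G).subtype A) 2) :=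
          Nat.card_pi
      _ ∣ ∏ p : s, Nat.card (Q p : Subgroup G) :=
          Finset.prod_dvd_prod_of_dvd _ _ fun p _ => by
            have := hp p
            exact (key p (Q p)).2
      _ = ∏ p : s, (p : ℕ) ^ (Nat.card G).factorization p :=
          Finset.prod_congr rfl fun p _ => by
            have := hp p
            exact Sylow.card_eq_multiplicity (Q p)
      _ = ∏ p ∈ s, p ^ (Nat.card G).factorization p :=
          Finset.prod_coe_sort s fun p => p ^ (Nat.card G).factorization p
      _ = Nat.card G := Nat.prod_factorization_pow_eq_self Nat.card_pos.ne'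

end Fermat.Agent.CFT.Devissage
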