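import Mathlib
import Fermat.Agent.CFT.Devissage

/-!
# Upper bound for relative Brauer groups of field extensions (Project C, slice B3b-(U))

For a class `𝒦` of field extensions closed under passing to `M/E` and `E/K` (`E` an intermediate
field of `M/K`): if `|H²(Gal(M/K), Mˣ)| ∣ [M : K]` for all Galois extensions of **prime** degree in
`𝒦`, then the same holds for **all** finite Galois extensions in `𝒦` (`card_H2_units_dvd`).
Here `H²(Gal(M/K), Mˣ) = groupCohomology (Rep.ofAlgebraAutOnUnits K M) 2` (Mathlib).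

The proof applies `Devissage.devissage_finite` to the class `IsLayer 𝒦` of pairs `(G, A)`
isomorphic to some `(Gal(M/K), Mˣ)`.  Reusable pieces:

* `PairIso B A` (isomorphism of pairs group + `ℤ`-representation), `PairIso.refl/symm/trans`,
  `mapIsoInt`, `PairIso.card_eq`, `PairIso.subsingleton`, `PairIso.res`, `PairIso.quot`;
* `pairIso_res H` : `(H, Mˣ) ≅ (Gal(M/M^H), Mˣ)`;
* `pairIso_quot H` : `(Gal(M/K) ⧸ H, (Mˣ)^H) ≅ (Gal(M^H/K), (M^H)ˣ)` for `H` normal;
* `unitsToInvariants H : Additive (M^H)ˣ →+ (Mˣ)^H` and its bijectivity.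
-/

set_option autoImplicit false

noncomputable section

namespace Fermat.Agent.CFT.BrauerUpper

open groupCohomology CategoryTheory Rep IntermediateField

section PairIso

variable {G H J : Type} [Group G] [Group H] [Group J]

/-- `(G, B)` and `(H, A)` are isomorphic pairs (group with a `ℤ`-representation). -/
def PairIso (B : Rep.{0} ℤ G) (A : Rep.{0} ℤ H) : Prop :=
  ∃ (e : G ≃* H) (e' : B.V ≃+ A.V), ∀ g b, e' (B.ρ g b) = A.ρ (e g) (e' b)

theorem PairIso.refl (A : Rep.{0} ℤ G) : PairIso A A :=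
  ⟨MulEquiv.refl _, AddEquiv.refl _, fun _ _ => rfl⟩

theorem PairIso.symm {B : Rep.{0} ℤ G} {A : Rep.{0} ℤ H} (h : PairIso B A) : PairIso A B := by
  obtain ⟨e, e', he⟩ := h
  refine ⟨e.symm, e'.symm, fun h a => ?_⟩
  apply e'.injective
  rw [he]
  simp

theorem PairIso.trans {C : Rep.{0} ℤ G} {B : Rep.{0} ℤ H} {A : Rep.{0} ℤ J}
    (h1 : PairIso C B) (h2 : PairIso B A) : PairIso C A := by
  obtain ⟨e1, e1', he1⟩ := h1
  obtain ⟨e2, e2', he2⟩ := h2
  exact ⟨e1.trans e2, e1'.trans e2', fun g b => by simp [he1, he2]⟩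

/-- Isomorphic pairs have isomorphic cohomology. -/
def mapIsoInt {B : Rep.{0} ℤ G} {A : Rep.{0} ℤ H} (e : G ≃* H) (e' : B.V ≃+ A.V)
    (he : ∀ g b, e' (B.ρ g b) = A.ρ (e g) (e' b)) (n : ℕ) :
    groupCohomology B n ≅ groupCohomology A n :=
  mapIso (A := A) (B := B) e (AddEquiv.toIntLinearEquiv (modM := B.hV2) (modM₂ := A.hV2) e')
    (fun g => DFunLike.ext _ _ fun b => he g b) n

theorem PairIso.nonempty_iso {B : Rep.{0} ℤ G} {A : Rep.{0} ℤ H} (h : PairIso B A) (n : ℕ) :
    Nonempty (groupCohomology B n ≃+ groupCohomology A n) := by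
  obtain ⟨e, e', he⟩ := h
  exact ⟨(mapIsoInt e e' he n).toLinearEquiv.toAddEquiv⟩

theorem PairIso.card_eq {B : Rep.{0} ℤ G} {A : Rep.{0} ℤ H} (h : PairIso B A) (n : ℕ) :
    Nat.card (groupCohomology B n) = Nat.card (groupCohomology A n) := by
  obtain ⟨i⟩ := h.nonempty_iso n
  exact Nat.card_congr i.toEquiv

theorem PairIso.subsingleton {B : Rep.{0} ℤ G} {A : Rep.{0} ℤ H} (h : PairIso B A) (n : ℕ)
    [Subsingleton (groupCohomology A n)] : Subsingleton (groupCohomology B n) := by
  obtain ⟨i⟩ := h.nonempty_iso n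
  exact i.toEquiv.subsingleton

theorem PairIso.card_group {B : Rep.{0} ℤ G} {A : Rep.{0} ℤ H} (h : PairIso B A) :
    Nat.card G = Nat.card H := by
  obtain ⟨e, -, -⟩ := h
  exact Nat.card_congr e.toEquiv

/-- Restriction to a subgroup of isomorphic pairs. -/
theorem PairIso.res {B : Rep.{0} ℤ G} {A : Rep.{0} ℤ H} (e : G ≃* H) (e' : B.V ≃+ A.V)
    (he : ∀ g b, e' (B.ρ g b) = A.ρ (e g) (e' b)) (S : Subgroup G) :
    PairIso (Rep.res S.subtype B) (Rep.res (S.map (e : G →* H)).subtype A) :=
  ⟨e.subgroupMap S, e', fun s b => he s.1 b⟩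

/-- Quotient by a normal subgroup of isomorphic pairs. -/
theorem PairIso.quot {B : Rep.{0} ℤ G} {A : Rep.{0} ℤ H} (e : G ≃* H) (e' : B.V ≃+ A.V)
    (he : ∀ g b, e' (B.ρ g b) = A.ρ (e g) (e' b)) (S : Subgroup G) [S.Normal]
    (T : Subgroup H) [T.Normal] (hT : S.map (e : G →* H) = T) :
    PairIso (B.quotientToInvariants S) (A.quotientToInvariants T) := by
  have hmem : ∀ s : G, s ∈ S → e s ∈ T := fun s hs => hT ▸ Subgroup.mem_map_of_mem _ hs
  have hmem' : ∀ t : H, t ∈ T → e.symm t ∈ S := fun t ht => by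
    rw [← hT] at ht
    obtain ⟨s, hs, rfl⟩ := ht
    simpa using hs
  have he'' : ∀ h a, e'.symm (A.ρ h a) = B.ρ (e.symm h) (e'.symm a) := fun h a => by
    apply e'.injective
    rw [he]; simp
  let f : (B.quotientToInvariants S).V ≃+ (A.quotientToInvariants T).V :=
    { toFun := fun b => ⟨e' b.1, fun t => by
        have h1 := he (e.symm t.1) b.1
        have h2 := b.2 ⟨e.symm t.1, hmem' _ t.2⟩
        simp only [MulEquiv.apply_symm_apply] at h1
        change A.ρ t.1 (e' b.1) = e' b.1
        rw [← h1]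
        exact congrArg e' h2⟩
      invFun := fun a => ⟨e'.symm a.1, fun s => by
        have h1 := he'' (e s.1) a.1
        have h2 := a.2 ⟨e s.1, hmem _ s.2⟩
        simp only [MulEquiv.symm_apply_apply] at h1
        change B.ρ s.1 (e'.symm a.1) = e'.symm a.1
        rw [← h1]
        exact congrArg e'.symm h2⟩
      left_inv := fun b => Subtype.ext (e'.symm_apply_apply _)
      right_inv := fun a => Subtype.ext (e'.apply_symm_apply _)
      map_add' := fun b b' => Subtype.ext (map_add e' _ _) }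
  refine ⟨QuotientGroup.congr S T e hT, f, fun g b => ?_⟩
  induction g using QuotientGroup.induction_on with | @H g =>
  exact Subtype.ext (he g b.1)

end PairIso


section Galois

variable {K M : Type} [Field K] [Field M] [Algebra K M] [FiniteDimensional K M]

/-- **(D1)** `(H, Mˣ)` is the pair of the extension `M / M^H`. -/
theorem pairIso_res (H : Subgroup (M ≃ₐ[K] M)) :
    PairIso (Rep.res H.subtype (Rep.ofAlgebraAutOnUnits K M))
      (Rep.ofAlgebraAutOnUnits (fixedField H) M) :=
  ⟨subgroupEquivAlgEquiv H, AddEquiv.refl _, fun _ _ => rfl⟩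

variable [IsGalois K M]

/-- The map `(M^H)ˣ → (Mˣ)^H`. -/
def unitsToInvariants (H : Subgroup (M ≃ₐ[K] M)) [H.Normal] :
    Additive (fixedField H)ˣ →+ ((Rep.ofAlgebraAutOnUnits K M).quotientToInvariants H).V where
  toFun u := ⟨Additive.ofMul (Units.map (algebraMap (fixedField H) M).toMonoidHom u.toMul),
    fun h => by
      change Additive.ofMul ((h : M ≃ₐ[K] M) • Units.map _ u.toMul) = _
      congr 1
      ext
      exact (mem_fixedField_iff H _).1 (u.toMul : fixedField H).2 h.1 h.2⟩
  map_zero' := Subtype.ext (by simp only [toMul_zero, map_one]; rfl)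
  map_add' u v := Subtype.ext (by simp only [toMul_add, map_mul]; rfl)

omit [FiniteDimensional K M] [IsGalois K M] in
theorem unitsToInvariants_bijective (H : Subgroup (M ≃ₐ[K] M)) [H.Normal] :
    Function.Bijective (unitsToInvariants H) := by
  constructor
  · intro u v huv
    have h1 : (Units.map (algebraMap (fixedField H) M).toMonoidHom u.toMul : Mˣ) =
        Units.map (algebraMap (fixedField H) M).toMonoidHom v.toMul :=
      congrArg (fun x => Additive.toMul x.1) huv
    have h2 : ((u.toMul : (fixedField H)ˣ) : fixedField H) = (v.toMul : (fixedField H)ˣ) :=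
      (algebraMap (fixedField H) M).injective (congrArg Units.val h1)
    exact congrArg Additive.ofMul (Units.ext h2)
  · rintro ⟨a, ha⟩
    have hfix : ∀ h ∈ H, h ((Additive.toMul a : Mˣ) : M) = (Additive.toMul a : Mˣ) := by
      intro h hh
      have := ha ⟨h, hh⟩
      exact congrArg (fun x => ((Additive.toMul x : Mˣ) : M)) this
    have hmem : ((Additive.toMul a : Mˣ) : M) ∈ fixedField H := (mem_fixedField_iff H _).2 hfix
    have hne : (⟨((Additive.toMul a : Mˣ) : M), hmem⟩ : fixedField H) ≠ 0 := fun h0 =>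
      (Additive.toMul a : Mˣ).ne_zero (congrArg Subtype.val h0)
    refine ⟨Additive.ofMul (Units.mk0 _ hne), Subtype.ext ?_⟩
    exact congrArg Additive.ofMul (Units.ext rfl)

/-- **(D2)**, reverse direction. -/
theorem pairIso_quot_symm (H : Subgroup (M ≃ₐ[K] M)) [H.Normal] :
    PairIso (Rep.ofAlgebraAutOnUnits K (fixedField H))
      ((Rep.ofAlgebraAutOnUnits K M).quotientToInvariants H) := by
  refine ⟨(IsGalois.normalAutEquivQuotient H).symm,
    AddEquiv.ofBijective (unitsToInvariants H) (unitsToInvariants_bijective H),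
    fun σ (u : Additive (fixedField H)ˣ) => ?_⟩
  obtain ⟨q, rfl⟩ := (IsGalois.normalAutEquivQuotient H).surjective σ
  rw [MulEquiv.symm_apply_apply]
  induction q using QuotientGroup.induction_on with | @H g =>
  apply Subtype.ext
  apply Additive.toMul.injective
  apply Units.ext
  change algebraMap (fixedField H) M ((IsGalois.normalAutEquivQuotient H (g : (M ≃ₐ[K] M) ⧸ H))
      ((Additive.toMul u : (fixedField H)ˣ) : fixedField H)) =
    g (algebraMap (fixedField H) M ((Additive.toMul u : (fixedField H)ˣ) : fixedField H))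
  rw [IsGalois.normalAutEquivQuotient_apply]
  exact AlgEquiv.restrictNormal_commutes g (fixedField H) _

/-- **(D2)** `(Gal(M/K) ⧸ H, (Mˣ)^H)` is the pair of the extension `M^H / K`. -/
theorem pairIso_quot (H : Subgroup (M ≃ₐ[K] M)) [H.Normal] :
    PairIso ((Rep.ofAlgebraAutOnUnits K M).quotientToInvariants H)
      (Rep.ofAlgebraAutOnUnits K (fixedField H)) :=
  (pairIso_quot_symm H).symm

end Galois


section Layer

/-- The class of pairs `(G, A)` isomorphic to `(Gal(M/K), Mˣ)` for a finite Galois extension `M/K`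
in the class `𝒦`. -/
def IsLayer (𝒦 : ∀ (K M : Type) [Field K] [Field M] [Algebra K M], Prop)
    (G : Type) [Group G] (A : Rep.{0} ℤ G) : Prop :=
  ∃ (K M : Type) (_ : Field K) (_ : Field M) (_ : Algebra K M) (_ : FiniteDimensional K M)
    (_ : IsGalois K M), 𝒦 K M ∧ PairIso A (Rep.ofAlgebraAutOnUnits K M)

variable {𝒦 : ∀ (K M : Type) [Field K] [Field M] [Algebra K M], Prop}

theorem isLayer_self {K M : Type} [Field K] [Field M] [Algebra K M] [FiniteDimensional K M]
    [IsGalois K M] (h : 𝒦 K M) : IsLayer 𝒦 (M ≃ₐ[K] M) (Rep.ofAlgebraAutOnUnits K M) :=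
  ⟨K, M, _, _, _, ‹_›, ‹_›, h, PairIso.refl _⟩

theorem isLayer_res
    (htop : ∀ (K M : Type) [Field K] [Field M] [Algebra K M] (E : IntermediateField K M),
      𝒦 K M → 𝒦 E M)
    (G : Type) [Group G] (A : Rep.{0} ℤ G) (S : Subgroup G) (hA : IsLayer 𝒦 G A) :
    IsLayer 𝒦 S (Rep.res S.subtype A) := by
  obtain ⟨K, M, _, _, _, _, _, hKM, e, e', he⟩ := hA
  exact ⟨fixedField (S.map (e : G →* (M ≃ₐ[K] M))), M, inferInstance, inferInstance,
    inferInstance, inferInstance, inferInstance, htop K M _ hKM,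
    (PairIso.res e e' he S).trans (pairIso_res _)⟩

theorem isLayer_quot
    (hbot : ∀ (K M : Type) [Field K] [Field M] [Algebra K M] (E : IntermediateField K M),
      𝒦 K M → 𝒦 K E)
    (G : Type) [Group G] (A : Rep.{0} ℤ G) (S : Subgroup G) [S.Normal] (hA : IsLayer 𝒦 G A) :
    IsLayer 𝒦 (G ⧸ S) (A.quotientToInvariants S) := by
  obtain ⟨K, M, _, _, _, _, _, hKM, e, e', he⟩ := hA
  have : (S.map (e : G →* (M ≃ₐ[K] M))).Normal := Subgroup.Normal.map ‹_› _ e.surjective
  exact ⟨K, fixedField (S.map (e : G →* (M ≃ₐ[K] M))), inferInstance, inferInstance,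
    inferInstance, inferInstance, inferInstance, hbot K M _ hKM,
    (PairIso.quot e e' he S _ rfl).trans (pairIso_quot _)⟩

theorem isLayer_prime
    (hprime : ∀ (K M : Type) [Field K] [Field M] [Algebra K M] [FiniteDimensional K M]
      [IsGalois K M], 𝒦 K M → (Module.finrank K M).Prime →
      Nat.card (groupCohomology (Rep.ofAlgebraAutOnUnits K M) 2) ∣ Module.finrank K M)
    (G : Type) [Group G] (A : Rep.{0} ℤ G) (hA : IsLayer 𝒦 G A) (hp : (Nat.card G).Prime) :
    Subsingleton (groupCohomology A 1) ∧ Nat.card (groupCohomology A 2) ∣ Nat.card G := by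
  obtain ⟨K, M, _, _, _, _, _, hKM, hiso⟩ := hA
  have hcard : Nat.card G = Module.finrank K M := by
    rw [hiso.card_group, IsGalois.card_aut_eq_finrank]
  constructor
  · have : Subsingleton (groupCohomology (Rep.ofAlgebraAutOnUnits K M) 1) :=
      (groupCohomology.H1ofAutOnUnitsUnique K M).instSubsingleton
    exact hiso.subsingleton 1
  · rw [hiso.card_eq 2, hcard]
    exact hprime K M hKM (hcard ▸ hp)

/-- **Upper bound for relative Brauer groups by dévissage.**  Let `𝒦` be a class of field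
extensions closed under `M/K ↦ M/E` and `M/K ↦ E/K` for intermediate fields `E`.  If
`|H²(Gal(M/K), Mˣ)|` divides `[M : K]` for every Galois extension of prime degree in `𝒦`, then
the same holds for every finite Galois extension in `𝒦`. -/
theorem card_H2_units_dvd
    (𝒦 : ∀ (K M : Type) [Field K] [Field M] [Algebra K M], Prop)
    (htop : ∀ (K M : Type) [Field K] [Field M] [Algebra K M] (E : IntermediateField K M),
      𝒦 K M → 𝒦 E M)
    (hbot : ∀ (K M : Type) [Field K] [Field M] [Algebra K M] (E : IntermediateField K M),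
      𝒦 K M → 𝒦 K E)
    (hprime : ∀ (K M : Type) [Field K] [Field M] [Algebra K M] [FiniteDimensional K M]
      [IsGalois K M], 𝒦 K M → (Module.finrank K M).Prime →
      Nat.card (groupCohomology (Rep.ofAlgebraAutOnUnits K M) 2) ∣ Module.finrank K M)
    (K M : Type) [Field K] [Field M] [Algebra K M] [FiniteDimensional K M] [IsGalois K M]
    (h : 𝒦 K M) :
    Nat.card (groupCohomology (Rep.ofAlgebraAutOnUnits K M) 2) ∣ Module.finrank K M := by
  have := (Devissage.devissage_finite (k := ℤ) (IsLayer 𝒦)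
    (fun G _ A S hA => isLayer_res htop G A S hA)
    (fun G _ A S _ hA => isLayer_quot hbot G A S hA)
    (fun G _ A hA hp => isLayer_prime hprime G A hA hp)
    (M ≃ₐ[K] M) (Rep.ofAlgebraAutOnUnits K M) (isLayer_self h)).2
  rwa [IsGalois.card_aut_eq_finrank] at this

end Layer

end Fermat.Agent.CFT.BrauerUpper
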