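import Mathlib

/-
Project C, Layer A4: the Herbrand quotient, in concrete index form (Mathlib only).

For an additive commutative group `A` and endomorphisms `f g : A →+ A` with `f ∘ g = 0 = g ∘ f`:
* `idx f g = [ker f : im g]` (`0` if infinite), `IsDefined f g`, `herbrand f g : ℚ`;
* multiplicativity for a stable subgroup and for short exact sequences (`IsSES`), three-way;
* finite groups have `herbrand = 1`; finite-index stable subgroups, finite stable subgroups and
  equivariant maps with finite kernel and cokernel do not change `herbrand`;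
* transport along isomorphisms, products;
* the cyclic case `delta σ = σ - 1`, `nrm σ n = 1 + σ + ⋯ + σ^(n-1)`, `h(ℤ) = n`.
-/

set_option autoImplicit false

noncomputable section

namespace Fermat.Agent.CFT.Herbrand

variable {A : Type*} [AddCommGroup A]

/-- `[ker f : im g]` (zero if infinite). -/
def idx (f g : A →+ A) : ℕ := g.range.relIndex f.ker

/-- The Herbrand quotient of a pair of endomorphisms is defined. -/
def IsDefined (f g : A →+ A) : Prop := idx f g ≠ 0 ∧ idx g f ≠ 0

/-- The Herbrand quotient `[ker f : im g] / [ker g : im f]`. -/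
noncomputable def herbrand (f g : A →+ A) : ℚ := (idx f g : ℚ) / (idx g f : ℚ)

/-- `[ker f ∩ A' : g A']`: the index for the restrictions to a stable subgroup. -/
def idxSub (f g : A →+ A) (A' : AddSubgroup A) : ℕ := (A'.map g).relIndex (f.ker ⊓ A')

/-- `[f⁻¹ A' : g A + A']`: the index for the induced maps on the quotient. -/
def idxQuot (f g : A →+ A) (A' : AddSubgroup A) : ℕ := (g.range ⊔ A').relIndex (A'.comap f)

/-- the connecting index `[g A ∩ A' : g A']` -/
def conn (g : A →+ A) (A' : AddSubgroup A) : ℕ := (A'.map g).relIndex (g.range ⊓ A')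

section Calculus

variable (f g : A →+ A) (A' : AddSubgroup A)

theorem range_le_ker (hfg : ∀ a, f (g a) = 0) : g.range ≤ f.ker := by
  rintro _ ⟨a, rfl⟩
  exact hfg a

theorem conn_eq :
    conn f A' = (f.ker ⊔ A').relIndex (A'.comap f) := by
  have h1 := AddSubgroup.relIndex_map_map f A' (A'.comap f)
  rw [AddSubgroup.map_comap_eq] at h1
  have h2 : A'.comap f ⊔ f.ker = A'.comap f := by
    apply sup_eq_left.mpr
    intro x hx
    rw [AddSubgroup.mem_comap, AddMonoidHom.mem_ker.mp hx]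
    exact A'.zero_mem
  rw [h2, sup_comm] at h1
  rw [conn, h1]

/-- The key decomposition `[ker f : im g] = [ker f ∩ A' : im g ∩ A'] * [ker f + A' : im g + A']`. -/
theorem idx_eq_mul (hfg : ∀ a, f (g a) = 0) :
    idx f g = (g.range ⊓ A').relIndex (f.ker ⊓ A') * (g.range ⊔ A').relIndex (f.ker ⊔ A') := by
  have hBZ : g.range ≤ f.ker := range_le_ker f g hfg
  -- split at `Z ⊓ (B ⊔ A') = B ⊔ (Z ⊓ A')`
  have hmod : (g.range ⊔ A') ⊓ f.ker = g.range ⊔ A' ⊓ f.ker := sup_inf_assoc_of_le A' hBZ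
  have h1 : idx f g = g.range.relIndex (g.range ⊔ A' ⊓ f.ker) *
      (g.range ⊔ A' ⊓ f.ker).relIndex f.ker :=
    (AddSubgroup.relIndex_mul_relIndex _ _ _ le_sup_left
      (sup_le hBZ inf_le_right)).symm
  rw [h1]
  congr 1
  · -- `[B + Z' : B] = [Z' : B ∩ A']`
    rw [sup_comm, AddSubgroup.relIndex_sup_right, ← AddSubgroup.inf_relIndex_right,
      inf_comm A' f.ker]
    congr 1
    rw [← inf_assoc, inf_eq_left.mpr hBZ]
  · -- `[Z : Z ∩ (B + A')] = [Z + A' : B + A']`
    rw [← hmod, AddSubgroup.inf_relIndex_right]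
    have h2 := AddSubgroup.relIndex_sup_right f.ker (g.range ⊔ A')
    rw [← h2]
    congr 1
    rw [← sup_assoc, sup_eq_left.mpr hBZ]

/-- **Index identity** behind the multiplicativity of the Herbrand quotient. -/
theorem idx_mul_conn (hfg : ∀ a, f (g a) = 0) (hf : ∀ a ∈ A', f a ∈ A')
    (hg : ∀ a ∈ A', g a ∈ A') :
    idx f g * conn f A' * conn g A' = idxQuot f g A' * idxSub f g A' := by
  have hBZ : g.range ≤ f.ker := range_le_ker f g hfg
  have hB' : A'.map g ≤ g.range ⊓ A' := by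
    rintro _ ⟨a, ha, rfl⟩
    exact ⟨⟨a, rfl⟩, hg a ha⟩
  have hZt : f.ker ⊔ A' ≤ A'.comap f := by
    refine sup_le (fun x hx => ?_) (fun x hx => hf x hx)
    rw [AddSubgroup.mem_comap, AddMonoidHom.mem_ker.mp hx]
    exact A'.zero_mem
  have h1 : idxQuot f g A' =
      (g.range ⊔ A').relIndex (f.ker ⊔ A') * (f.ker ⊔ A').relIndex (A'.comap f) :=
    (AddSubgroup.relIndex_mul_relIndex _ _ _ (sup_le_sup_right hBZ A') hZt).symm
  have h2 : idxSub f g A' =
      (A'.map g).relIndex (g.range ⊓ A') * (g.range ⊓ A').relIndex (f.ker ⊓ A') :=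
    (AddSubgroup.relIndex_mul_relIndex _ _ _ hB' (inf_le_inf_right A' hBZ)).symm
  rw [h1, h2, idx_eq_mul f g A' hfg, conn_eq f A', conn]
  ring

end Calculus

/-! ### Multiplicativity, subgroup form -/

section Mul

variable (f g : A →+ A) (A' : AddSubgroup A)

/-- Herbrand quotient of the restriction to a stable subgroup is defined. -/
def IsDefinedSub : Prop := idxSub f g A' ≠ 0 ∧ idxSub g f A' ≠ 0

/-- Herbrand quotient of the induced pair on the quotient is defined. -/
def IsDefinedQuot : Prop := idxQuot f g A' ≠ 0 ∧ idxQuot g f A' ≠ 0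

/-- Herbrand quotient of the restriction to a stable subgroup. -/
def herbrandSub : ℚ := (idxSub f g A' : ℚ) / (idxSub g f A' : ℚ)

/-- Herbrand quotient of the induced pair on the quotient. -/
def herbrandQuot : ℚ := (idxQuot f g A' : ℚ) / (idxQuot g f A' : ℚ)

theorem conn_dvd_idxSub (hfg : ∀ a, f (g a) = 0) (hg : ∀ a ∈ A', g a ∈ A') :
    conn g A' ∣ idxSub f g A' := by
  have hBZ : g.range ≤ f.ker := range_le_ker f g hfg
  have hB' : A'.map g ≤ g.range ⊓ A' := by
    rintro _ ⟨a, ha, rfl⟩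
    exact ⟨⟨a, rfl⟩, hg a ha⟩
  exact Dvd.intro _ (AddSubgroup.relIndex_mul_relIndex _ _ _ hB' (inf_le_inf_right A' hBZ))

theorem conn_dvd_idxQuot (hfg : ∀ a, f (g a) = 0) (hf : ∀ a ∈ A', f a ∈ A') :
    conn f A' ∣ idxQuot f g A' := by
  have hBZ : g.range ≤ f.ker := range_le_ker f g hfg
  have hZt : f.ker ⊔ A' ≤ A'.comap f := by
    refine sup_le (fun x hx => ?_) (fun x hx => hf x hx)
    rw [AddSubgroup.mem_comap, AddMonoidHom.mem_ker.mp hx]
    exact A'.zero_mem
  rw [conn_eq]
  exact Dvd.intro_left _ (AddSubgroup.relIndex_mul_relIndex _ _ _ (sup_le_sup_right hBZ A') hZt)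

variable (hfg : ∀ a, f (g a) = 0) (hgf : ∀ a, g (f a) = 0)
  (hf : ∀ a ∈ A', f a ∈ A') (hg : ∀ a ∈ A', g a ∈ A')

include hfg hgf hf hg

theorem herbrand_eq_of_conn_ne_zero (h1 : idx g f ≠ 0) (hcf : conn f A' ≠ 0)
    (hcg : conn g A' ≠ 0) (hS : idxSub g f A' ≠ 0) (hQ : idxQuot g f A' ≠ 0) :
    herbrand f g = herbrandSub f g A' * herbrandQuot f g A' := by
  have e1 := idx_mul_conn f g A' hfg hf hg
  have e2 := idx_mul_conn g f A' hgf hg hf
  have e1' : (idx f g : ℚ) * conn f A' * conn g A' = idxQuot f g A' * idxSub f g A' := by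
    exact_mod_cast e1
  have e2' : (idx g f : ℚ) * conn g A' * conn f A' = idxQuot g f A' * idxSub g f A' := by
    exact_mod_cast e2
  have a1 : (idx g f : ℚ) ≠ 0 := by exact_mod_cast h1
  have a2 : (conn f A' : ℚ) ≠ 0 := by exact_mod_cast hcf
  have a3 : (conn g A' : ℚ) ≠ 0 := by exact_mod_cast hcg
  have a4 : (idxSub g f A' : ℚ) ≠ 0 := by exact_mod_cast hS
  have a5 : (idxQuot g f A' : ℚ) ≠ 0 := by exact_mod_cast hQ
  rw [herbrand, herbrandSub, herbrandQuot, div_mul_div_comm, div_eq_div_iff a1 (mul_ne_zero a4 a5)]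
  have : (idx f g : ℚ) * (idxSub g f A' * idxQuot g f A') * (conn f A' * conn g A') =
      (idxSub f g A' * idxQuot f g A') * idx g f * (conn f A' * conn g A') := by
    calc (idx f g : ℚ) * (idxSub g f A' * idxQuot g f A') * (conn f A' * conn g A')
        = ((idx f g : ℚ) * conn f A' * conn g A') * (idxQuot g f A' * idxSub g f A') := by ring
      _ = (idxQuot f g A' * idxSub f g A') * ((idx g f : ℚ) * conn g A' * conn f A') := by
          rw [e1', e2']
      _ = _ := by ring
  exact mul_right_cancel₀ (mul_ne_zero a2 a3) this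

/-- If the Herbrand quotients of the subgroup and of the quotient are defined, so is that of `A`,
and it is their product. -/
theorem isDefined_of_sub_quot (hS : IsDefinedSub f g A') (hQ : IsDefinedQuot f g A') :
    IsDefined f g ∧ herbrand f g = herbrandSub f g A' * herbrandQuot f g A' := by
  have e1 := idx_mul_conn f g A' hfg hf hg
  have e2 := idx_mul_conn g f A' hgf hg hf
  have n1 : idx f g * conn f A' * conn g A' ≠ 0 := by
    rw [e1]
    exact mul_ne_zero hQ.1 hS.1
  have n2 : idx g f * conn g A' * conn f A' ≠ 0 := by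
    rw [e2]
    exact mul_ne_zero hQ.2 hS.2
  have hcf : conn f A' ≠ 0 := right_ne_zero_of_mul (left_ne_zero_of_mul n1)
  have hcg : conn g A' ≠ 0 := right_ne_zero_of_mul n1
  have h1 : idx f g ≠ 0 := left_ne_zero_of_mul (left_ne_zero_of_mul n1)
  have h2 : idx g f ≠ 0 := left_ne_zero_of_mul (left_ne_zero_of_mul n2)
  exact ⟨⟨h1, h2⟩, herbrand_eq_of_conn_ne_zero f g A' hfg hgf hf hg h2 hcf hcg hS.2 hQ.2⟩

/-- If the Herbrand quotients of `A` and of the subgroup are defined, so is that of the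
quotient. -/
theorem isDefinedQuot_of_sub (h : IsDefined f g) (hS : IsDefinedSub f g A') :
    IsDefinedQuot f g A' ∧ herbrand f g = herbrandSub f g A' * herbrandQuot f g A' := by
  have e1 := idx_mul_conn f g A' hfg hf hg
  have e2 := idx_mul_conn g f A' hgf hg hf
  have hcg : conn g A' ≠ 0 := ne_zero_of_dvd_ne_zero hS.1 (conn_dvd_idxSub f g A' hfg hg)
  have hcf : conn f A' ≠ 0 := ne_zero_of_dvd_ne_zero hS.2 (conn_dvd_idxSub g f A' hgf hf)
  have hQ1 : idxQuot f g A' ≠ 0 := by
    have : idxQuot f g A' * idxSub f g A' ≠ 0 := by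
      rw [← e1]
      exact mul_ne_zero (mul_ne_zero h.1 hcf) hcg
    exact left_ne_zero_of_mul this
  have hQ2 : idxQuot g f A' ≠ 0 := by
    have : idxQuot g f A' * idxSub g f A' ≠ 0 := by
      rw [← e2]
      exact mul_ne_zero (mul_ne_zero h.2 hcg) hcf
    exact left_ne_zero_of_mul this
  exact ⟨⟨hQ1, hQ2⟩, herbrand_eq_of_conn_ne_zero f g A' hfg hgf hf hg h.2 hcf hcg hS.2 hQ2⟩

/-- If the Herbrand quotients of `A` and of the quotient are defined, so is that of the
subgroup. -/
theorem isDefinedSub_of_quot (h : IsDefined f g) (hQ : IsDefinedQuot f g A') :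
    IsDefinedSub f g A' ∧ herbrand f g = herbrandSub f g A' * herbrandQuot f g A' := by
  have e1 := idx_mul_conn f g A' hfg hf hg
  have e2 := idx_mul_conn g f A' hgf hg hf
  have hcf : conn f A' ≠ 0 := ne_zero_of_dvd_ne_zero hQ.1 (conn_dvd_idxQuot f g A' hfg hf)
  have hcg : conn g A' ≠ 0 := ne_zero_of_dvd_ne_zero hQ.2 (conn_dvd_idxQuot g f A' hgf hg)
  have hS1 : idxSub f g A' ≠ 0 := by
    have : idxQuot f g A' * idxSub f g A' ≠ 0 := by
      rw [← e1]
      exact mul_ne_zero (mul_ne_zero h.1 hcf) hcg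
    exact right_ne_zero_of_mul this
  have hS2 : idxSub g f A' ≠ 0 := by
    have : idxQuot g f A' * idxSub g f A' ≠ 0 := by
      rw [← e2]
      exact mul_ne_zero (mul_ne_zero h.2 hcg) hcf
    exact right_ne_zero_of_mul this
  exact ⟨⟨hS1, hS2⟩, herbrand_eq_of_conn_ne_zero f g A' hfg hgf hf hg h.2 hcf hcg hS2 hQ.2⟩

end Mul

/-! ### Multiplicativity, short exact sequence form -/

section SES

variable {A' A'' : Type*} [AddCommGroup A'] [AddCommGroup A'']

/-- The index of a pair on the kernel of a short exact sequence, computed inside `A`. -/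
theorem idx_eq_idxSub (φ : A' →+ A) (hφ : Function.Injective φ) (f' g' : A' →+ A') (f g : A →+ A)
    (hf : ∀ a, φ (f' a) = f (φ a)) (hg : ∀ a, φ (g' a) = g (φ a)) :
    idx f' g' = idxSub f g φ.range := by
  rw [idx, idxSub, ← AddSubgroup.relIndex_map_map_of_injective g'.range f'.ker hφ]
  congr 1
  · rw [AddMonoidHom.map_range, AddMonoidHom.map_range]
    congr 1
    ext a
    exact hg a
  · ext x
    simp only [AddSubgroup.mem_map, AddMonoidHom.mem_ker, AddSubgroup.mem_inf,
      AddMonoidHom.mem_range]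
    constructor
    · rintro ⟨a, ha, rfl⟩
      exact ⟨by rw [← hf, ha, map_zero], a, rfl⟩
    · rintro ⟨hx, a, rfl⟩
      refine ⟨a, hφ ?_, rfl⟩
      rw [hf, hx, map_zero]

/-- The index of a pair on the cokernel of a short exact sequence, computed inside `A`. -/
theorem idx_eq_idxQuot (ψ : A →+ A'') (hψ : Function.Surjective ψ) (f'' g'' : A'' →+ A'')
    (f g : A →+ A) (hf : ∀ a, ψ (f a) = f'' (ψ a)) (hg : ∀ a, ψ (g a) = g'' (ψ a)) :
    idx f'' g'' = idxQuot f g ψ.ker := by
  have h1 : g''.range.comap ψ = g.range ⊔ ψ.ker := by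
    rw [← AddSubgroup.comap_map_eq, AddMonoidHom.map_range]
    congr 1
    ext x
    simp only [AddMonoidHom.mem_range, AddMonoidHom.comp_apply]
    constructor
    · rintro ⟨y, rfl⟩
      obtain ⟨a, rfl⟩ := hψ y
      exact ⟨a, hg a⟩
    · rintro ⟨a, rfl⟩
      exact ⟨ψ a, (hg a).symm⟩
  have h2 : f''.ker.comap ψ = ψ.ker.comap f := by
    ext x
    simp only [AddSubgroup.mem_comap, AddMonoidHom.mem_ker, hf]
  rw [idx, idxQuot, ← h1, ← h2, AddSubgroup.relIndex_comap,
    AddSubgroup.map_comap_eq_self_of_surjective hψ]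

variable (φ : A' →+ A) (ψ : A →+ A'') (f' g' : A' →+ A') (f g : A →+ A) (f'' g'' : A'' →+ A'')

/-- The data of a short exact sequence `0 → A' → A → A'' → 0` of groups with a pair of
endomorphisms `f, g` with `f g = 0 = g f`. -/
structure IsSES : Prop where
  inj : Function.Injective φ
  surj : Function.Surjective ψ
  exact : φ.range = ψ.ker
  fg : ∀ a, f (g a) = 0
  gf : ∀ a, g (f a) = 0
  f_φ : ∀ a, φ (f' a) = f (φ a)
  g_φ : ∀ a, φ (g' a) = g (φ a)
  f_ψ : ∀ a, ψ (f a) = f'' (ψ a)
  g_ψ : ∀ a, ψ (g a) = g'' (ψ a)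

variable {φ ψ f' g' f g f'' g''}

namespace IsSES

variable (h : IsSES φ ψ f' g' f g f'' g'')

include h

theorem stable_f : ∀ a ∈ φ.range, f a ∈ φ.range := by
  rintro _ ⟨a, rfl⟩
  exact ⟨f' a, h.f_φ a⟩

theorem stable_g : ∀ a ∈ φ.range, g a ∈ φ.range := by
  rintro _ ⟨a, rfl⟩
  exact ⟨g' a, h.g_φ a⟩

theorem isDefinedSub_iff : IsDefinedSub f g φ.range ↔ IsDefined f' g' := by
  rw [IsDefinedSub, IsDefined, idx_eq_idxSub φ h.inj f' g' f g h.f_φ h.g_φ,
    idx_eq_idxSub φ h.inj g' f' g f h.g_φ h.f_φ]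

theorem isDefinedQuot_iff : IsDefinedQuot f g φ.range ↔ IsDefined f'' g'' := by
  rw [IsDefinedQuot, IsDefined, idx_eq_idxQuot ψ h.surj f'' g'' f g h.f_ψ h.g_ψ,
    idx_eq_idxQuot ψ h.surj g'' f'' g f h.g_ψ h.f_ψ, h.exact]

theorem herbrandSub_eq : herbrandSub f g φ.range = herbrand f' g' := by
  rw [herbrandSub, herbrand, idx_eq_idxSub φ h.inj f' g' f g h.f_φ h.g_φ,
    idx_eq_idxSub φ h.inj g' f' g f h.g_φ h.f_φ]

theorem herbrandQuot_eq : herbrandQuot f g φ.range = herbrand f'' g'' := by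
  rw [herbrandQuot, herbrand, idx_eq_idxQuot ψ h.surj f'' g'' f g h.f_ψ h.g_ψ,
    idx_eq_idxQuot ψ h.surj g'' f'' g f h.g_ψ h.f_ψ, h.exact]

/-- **Multiplicativity of the Herbrand quotient**, I: outer terms defined ⇒ middle defined. -/
theorem isDefined_mid (h1 : IsDefined f' g') (h2 : IsDefined f'' g'') :
    IsDefined f g ∧ herbrand f g = herbrand f' g' * herbrand f'' g'' := by
  have := isDefined_of_sub_quot f g φ.range h.fg h.gf h.stable_f h.stable_g
    (h.isDefinedSub_iff.mpr h1) (h.isDefinedQuot_iff.mpr h2)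
  rwa [h.herbrandSub_eq, h.herbrandQuot_eq] at this

/-- **Multiplicativity of the Herbrand quotient**, II: sub and middle defined ⇒ quotient
defined. -/
theorem isDefined_right (h1 : IsDefined f' g') (h2 : IsDefined f g) :
    IsDefined f'' g'' ∧ herbrand f g = herbrand f' g' * herbrand f'' g'' := by
  have := isDefinedQuot_of_sub f g φ.range h.fg h.gf h.stable_f h.stable_g h2
    (h.isDefinedSub_iff.mpr h1)
  rwa [h.herbrandSub_eq, h.herbrandQuot_eq, h.isDefinedQuot_iff] at this

/-- **Multiplicativity of the Herbrand quotient**, III: middle and quotient defined ⇒ sub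
defined. -/
theorem isDefined_left (h2 : IsDefined f g) (h3 : IsDefined f'' g'') :
    IsDefined f' g' ∧ herbrand f g = herbrand f' g' * herbrand f'' g'' := by
  have := isDefinedSub_of_quot f g φ.range h.fg h.gf h.stable_f h.stable_g h2
    (h.isDefinedQuot_iff.mpr h3)
  rwa [h.herbrandSub_eq, h.herbrandQuot_eq, h.isDefinedSub_iff] at this

end IsSES

end SES

/-! ### Finite groups and finite-index subgroups -/

section Finite

variable (f g : A →+ A) (A' : AddSubgroup A)

theorem herbrand_ne_zero_iff : herbrand f g ≠ 0 ↔ IsDefined f g := by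
  rw [herbrand, IsDefined, Ne, div_eq_zero_iff, not_or]
  simp only [Nat.cast_eq_zero]

theorem herbrand_eq_zero_of_not_isDefined (h : ¬ IsDefined f g) : herbrand f g = 0 := by
  by_contra h'
  exact h ((herbrand_ne_zero_iff f g).mp h')

theorem herbrandSub_ne_zero_iff : herbrandSub f g A' ≠ 0 ↔ IsDefinedSub f g A' := by
  rw [herbrandSub, IsDefinedSub, Ne, div_eq_zero_iff, not_or]
  simp only [Nat.cast_eq_zero]

theorem herbrandQuot_ne_zero_iff : herbrandQuot f g A' ≠ 0 ↔ IsDefinedQuot f g A' := by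
  rw [herbrandQuot, IsDefinedQuot, Ne, div_eq_zero_iff, not_or]
  simp only [Nat.cast_eq_zero]

/-- `[f⁻¹A' : gA + A'] * [gA + A' : A'] * [fA + A' : A'] = [A : A']` -/
theorem idxQuot_mul (hfg : ∀ a, f (g a) = 0) (hf : ∀ a ∈ A', f a ∈ A') :
    idxQuot f g A' * A'.relIndex g.range * A'.relIndex f.range = A'.index := by
  have hBZ : g.range ≤ f.ker := range_le_ker f g hfg
  have h1 : A' ≤ A'.comap f := fun x hx => hf x hx
  have h2 : g.range ⊔ A' ≤ A'.comap f := by
    refine sup_le (fun x hx => ?_) h1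
    rw [AddSubgroup.mem_comap, AddMonoidHom.mem_ker.mp (hBZ hx)]
    exact A'.zero_mem
  have e1 := AddSubgroup.relIndex_mul_relIndex A' (g.range ⊔ A') (A'.comap f) le_sup_right h2
  have e2 := AddSubgroup.relIndex_mul_index h1
  rw [AddSubgroup.index_comap] at e2
  rw [AddSubgroup.relIndex_sup_right] at e1
  rw [idxQuot, ← e2, ← e1]
  ring

/-- For a stable subgroup of finite index the Herbrand quotient of the quotient is defined and
trivial. -/
theorem idxQuot_comm (hfg : ∀ a, f (g a) = 0) (hgf : ∀ a, g (f a) = 0)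
    (hf : ∀ a ∈ A', f a ∈ A') (hg : ∀ a ∈ A', g a ∈ A') (hA' : A'.index ≠ 0) :
    idxQuot f g A' = idxQuot g f A' ∧ idxQuot f g A' ≠ 0 := by
  have e1 := idxQuot_mul f g A' hfg hf
  have e2 := idxQuot_mul g f A' hgf hg
  have n1 : idxQuot f g A' * A'.relIndex g.range * A'.relIndex f.range ≠ 0 := by rwa [e1]
  have a1 : idxQuot f g A' ≠ 0 := left_ne_zero_of_mul (left_ne_zero_of_mul n1)
  have a2 : A'.relIndex g.range ≠ 0 := right_ne_zero_of_mul (left_ne_zero_of_mul n1)
  have a3 : A'.relIndex f.range ≠ 0 := right_ne_zero_of_mul n1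
  refine ⟨?_, a1⟩
  have : idxQuot f g A' * (A'.relIndex g.range * A'.relIndex f.range) =
      idxQuot g f A' * (A'.relIndex g.range * A'.relIndex f.range) := by
    rw [← mul_assoc, e1, mul_comm (A'.relIndex g.range), ← mul_assoc, e2]
  exact Nat.eq_of_mul_eq_mul_right (Nat.pos_of_ne_zero (mul_ne_zero a2 a3)) this

theorem isDefinedQuot_of_index_ne_zero (hfg : ∀ a, f (g a) = 0) (hgf : ∀ a, g (f a) = 0)
    (hf : ∀ a ∈ A', f a ∈ A') (hg : ∀ a ∈ A', g a ∈ A') (hA' : A'.index ≠ 0) :
    IsDefinedQuot f g A' ∧ herbrandQuot f g A' = 1 := by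
  obtain ⟨e, n⟩ := idxQuot_comm f g A' hfg hgf hf hg hA'
  refine ⟨⟨n, e ▸ n⟩, ?_⟩
  rw [herbrandQuot, ← e]
  exact div_self (by exact_mod_cast n)

/-- **Finite-index subgroups have the same Herbrand quotient**: definedness. -/
theorem isDefined_iff_isDefinedSub (hfg : ∀ a, f (g a) = 0) (hgf : ∀ a, g (f a) = 0)
    (hf : ∀ a ∈ A', f a ∈ A') (hg : ∀ a ∈ A', g a ∈ A') (hA' : A'.index ≠ 0) :
    IsDefined f g ↔ IsDefinedSub f g A' := by
  obtain ⟨hQ, -⟩ := isDefinedQuot_of_index_ne_zero f g A' hfg hgf hf hg hA'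
  exact ⟨fun h => (isDefinedSub_of_quot f g A' hfg hgf hf hg h hQ).1,
    fun h => (isDefined_of_sub_quot f g A' hfg hgf hf hg h hQ).1⟩

/-- **Finite-index subgroups have the same Herbrand quotient** (both sides are `0` when
undefined). -/
theorem herbrand_eq_herbrandSub (hfg : ∀ a, f (g a) = 0) (hgf : ∀ a, g (f a) = 0)
    (hf : ∀ a ∈ A', f a ∈ A') (hg : ∀ a ∈ A', g a ∈ A') (hA' : A'.index ≠ 0) :
    herbrand f g = herbrandSub f g A' := by
  obtain ⟨hQ, h1⟩ := isDefinedQuot_of_index_ne_zero f g A' hfg hgf hf hg hA'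
  by_cases h : IsDefinedSub f g A'
  · rw [(isDefined_of_sub_quot f g A' hfg hgf hf hg h hQ).2, h1, mul_one]
  · have h' : ¬ IsDefined f g := fun h' =>
      h ((isDefined_iff_isDefinedSub f g A' hfg hgf hf hg hA').mp h')
    rw [herbrand_eq_zero_of_not_isDefined f g h']
    by_contra h''
    exact h ((herbrandSub_ne_zero_iff f g A').mp (Ne.symm h''))

theorem idxQuot_bot : idxQuot f g ⊥ = idx f g := by
  rw [idxQuot, idx, sup_bot_eq]
  rfl

/-- **The Herbrand quotient of a finite group is `1`**: index form. -/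
theorem idx_comm_of_finite [Finite A] (hfg : ∀ a, f (g a) = 0) (hgf : ∀ a, g (f a) = 0) :
    idx f g = idx g f ∧ idx f g ≠ 0 := by
  have hbot : ∀ k : A →+ A, ∀ a ∈ (⊥ : AddSubgroup A), k a ∈ (⊥ : AddSubgroup A) := by
    intro k a ha
    rw [AddSubgroup.mem_bot.mp ha, map_zero]
    exact AddSubgroup.zero_mem _
  have hidx : (⊥ : AddSubgroup A).index ≠ 0 := by
    rw [AddSubgroup.index_bot]
    exact Nat.card_pos.ne'
  have := idxQuot_comm f g ⊥ hfg hgf (hbot f) (hbot g) hidx
  rwa [idxQuot_bot, idxQuot_bot] at this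

/-- **The Herbrand quotient of a finite group is `1`**. -/
theorem herbrand_of_finite [Finite A] (hfg : ∀ a, f (g a) = 0) (hgf : ∀ a, g (f a) = 0) :
    IsDefined f g ∧ herbrand f g = 1 := by
  obtain ⟨e, n⟩ := idx_comm_of_finite f g hfg hgf
  refine ⟨⟨n, e ▸ n⟩, ?_⟩
  rw [herbrand, ← e]
  exact div_self (by exact_mod_cast n)

end Finite

/-! ### Finite subgroups; maps with finite kernel and cokernel -/

section FiniteKerCoker

/-- restriction of an endomorphism to a stable subgroup -/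
def restr (f : A →+ A) (A' : AddSubgroup A) (hf : ∀ a ∈ A', f a ∈ A') : A' →+ A' :=
  (f.comp A'.subtype).codRestrict A' (fun x => hf x x.2)

@[simp] theorem coe_restr (f : A →+ A) (A' : AddSubgroup A) (hf : ∀ a ∈ A', f a ∈ A') (x : A') :
    (restr f A' hf x : A) = f x := rfl

/-- The subgroup-form index is the index of the restricted pair. -/
theorem idx_restr (f g : A →+ A) (A' : AddSubgroup A) (hf : ∀ a ∈ A', f a ∈ A')
    (hg : ∀ a ∈ A', g a ∈ A') : idx (restr f A' hf) (restr g A' hg) = idxSub f g A' := by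
  have := idx_eq_idxSub A'.subtype A'.subtype_injective (restr f A' hf) (restr g A' hg) f g
    (fun _ => rfl) (fun _ => rfl)
  rwa [AddSubgroup.range_subtype] at this

theorem isDefined_restr_iff (f g : A →+ A) (A' : AddSubgroup A) (hf : ∀ a ∈ A', f a ∈ A')
    (hg : ∀ a ∈ A', g a ∈ A') :
    IsDefined (restr f A' hf) (restr g A' hg) ↔ IsDefinedSub f g A' := by
  rw [IsDefined, IsDefinedSub, idx_restr, idx_restr]

theorem herbrand_restr (f g : A →+ A) (A' : AddSubgroup A) (hf : ∀ a ∈ A', f a ∈ A')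
    (hg : ∀ a ∈ A', g a ∈ A') :
    herbrand (restr f A' hf) (restr g A' hg) = herbrandSub f g A' := by
  rw [herbrand, herbrandSub, idx_restr, idx_restr]

/-- A finite stable subgroup has trivial Herbrand quotient. -/
theorem isDefinedSub_of_finite (f g : A →+ A) (A' : AddSubgroup A)
    (hfg : ∀ a, f (g a) = 0) (hgf : ∀ a, g (f a) = 0)
    (hf : ∀ a ∈ A', f a ∈ A') (hg : ∀ a ∈ A', g a ∈ A') [Finite A'] :
    IsDefinedSub f g A' ∧ herbrandSub f g A' = 1 := by
  have := herbrand_of_finite (restr f A' hf) (restr g A' hg)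
    (fun a => Subtype.ext (hfg a)) (fun a => Subtype.ext (hgf a))
  rwa [isDefined_restr_iff, herbrand_restr] at this

/-- Dividing out a finite stable subgroup does not change the Herbrand quotient: definedness. -/
theorem isDefined_iff_isDefinedQuot (f g : A →+ A) (A' : AddSubgroup A)
    (hfg : ∀ a, f (g a) = 0) (hgf : ∀ a, g (f a) = 0)
    (hf : ∀ a ∈ A', f a ∈ A') (hg : ∀ a ∈ A', g a ∈ A') [Finite A'] :
    IsDefined f g ↔ IsDefinedQuot f g A' := by
  obtain ⟨hS, -⟩ := isDefinedSub_of_finite f g A' hfg hgf hf hg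
  exact ⟨fun h => (isDefinedQuot_of_sub f g A' hfg hgf hf hg h hS).1,
    fun h => (isDefined_of_sub_quot f g A' hfg hgf hf hg hS h).1⟩

/-- Dividing out a finite stable subgroup does not change the Herbrand quotient (both sides are
`0` when undefined). -/
theorem herbrand_eq_herbrandQuot (f g : A →+ A) (A' : AddSubgroup A)
    (hfg : ∀ a, f (g a) = 0) (hgf : ∀ a, g (f a) = 0)
    (hf : ∀ a ∈ A', f a ∈ A') (hg : ∀ a ∈ A', g a ∈ A') [Finite A'] :
    herbrand f g = herbrandQuot f g A' := by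
  obtain ⟨hS, h1⟩ := isDefinedSub_of_finite f g A' hfg hgf hf hg
  by_cases h : IsDefinedQuot f g A'
  · rw [(isDefined_of_sub_quot f g A' hfg hgf hf hg hS h).2, h1, one_mul]
  · have h' : ¬ IsDefined f g := fun h' =>
      h ((isDefined_iff_isDefinedQuot f g A' hfg hgf hf hg).mp h')
    rw [herbrand_eq_zero_of_not_isDefined f g h']
    by_contra h''
    exact h ((herbrandQuot_ne_zero_iff f g A').mp (Ne.symm h''))

variable {B : Type*} [AddCommGroup B]

/-- For any equivariant map `φ : A → B`, the quotient index of `A` by `ker φ` is the subgroup index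
of `im φ` in `B`. -/
theorem idxQuot_ker_eq_idxSub_range (φ : A →+ B) (f g : A →+ A) (fB gB : B →+ B)
    (hf : ∀ a, φ (f a) = fB (φ a)) (hg : ∀ a, φ (g a) = gB (φ a)) :
    idxQuot f g φ.ker = idxSub fB gB φ.range := by
  have h1 : (φ.range.map gB).comap φ = g.range ⊔ φ.ker := by
    rw [← AddSubgroup.comap_map_eq, AddMonoidHom.map_range, AddMonoidHom.map_range]
    congr 2
    ext a
    exact (hg a).symm
  have h2 : (φ.ker.comap f).map φ = fB.ker ⊓ φ.range := by
    have : φ.ker.comap f = fB.ker.comap φ := by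
      ext x
      simp only [AddSubgroup.mem_comap, AddMonoidHom.mem_ker, hf]
    rw [this, AddSubgroup.map_comap_eq, inf_comm]
  rw [idxQuot, idxSub, ← h1, AddSubgroup.relIndex_comap, h2]

/-- **Invariance of the Herbrand quotient under maps with finite kernel and cokernel**:
definedness. -/
theorem isDefined_iff_of_finite_ker_coker (φ : A →+ B) (f g : A →+ A) (fB gB : B →+ B)
    (hfg : ∀ a, f (g a) = 0) (hgf : ∀ a, g (f a) = 0)
    (hfgB : ∀ b, fB (gB b) = 0) (hgfB : ∀ b, gB (fB b) = 0)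
    (hf : ∀ a, φ (f a) = fB (φ a)) (hg : ∀ a, φ (g a) = gB (φ a))
    [Finite φ.ker] (hcoker : φ.range.index ≠ 0) :
    IsDefined f g ↔ IsDefined fB gB := by
  have sf : ∀ a ∈ φ.ker, f a ∈ φ.ker := fun a ha => by
    rw [AddMonoidHom.mem_ker] at ha ⊢
    rw [hf, ha, map_zero]
  have sg : ∀ a ∈ φ.ker, g a ∈ φ.ker := fun a ha => by
    rw [AddMonoidHom.mem_ker] at ha ⊢
    rw [hg, ha, map_zero]
  have tf : ∀ b ∈ φ.range, fB b ∈ φ.range := by
    rintro _ ⟨a, rfl⟩
    exact ⟨f a, hf a⟩
  have tg : ∀ b ∈ φ.range, gB b ∈ φ.range := by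
    rintro _ ⟨a, rfl⟩
    exact ⟨g a, hg a⟩
  rw [isDefined_iff_isDefinedQuot f g φ.ker hfg hgf sf sg,
    isDefined_iff_isDefinedSub fB gB φ.range hfgB hgfB tf tg hcoker, IsDefinedQuot, IsDefinedSub,
    idxQuot_ker_eq_idxSub_range φ f g fB gB hf hg, idxQuot_ker_eq_idxSub_range φ g f gB fB hg hf]

/-- **Invariance of the Herbrand quotient under maps with finite kernel and cokernel**. -/
theorem herbrand_eq_of_finite_ker_coker (φ : A →+ B) (f g : A →+ A) (fB gB : B →+ B)
    (hfg : ∀ a, f (g a) = 0) (hgf : ∀ a, g (f a) = 0)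
    (hfgB : ∀ b, fB (gB b) = 0) (hgfB : ∀ b, gB (fB b) = 0)
    (hf : ∀ a, φ (f a) = fB (φ a)) (hg : ∀ a, φ (g a) = gB (φ a))
    [Finite φ.ker] (hcoker : φ.range.index ≠ 0) :
    herbrand f g = herbrand fB gB := by
  have sf : ∀ a ∈ φ.ker, f a ∈ φ.ker := fun a ha => by
    rw [AddMonoidHom.mem_ker] at ha ⊢
    rw [hf, ha, map_zero]
  have sg : ∀ a ∈ φ.ker, g a ∈ φ.ker := fun a ha => by
    rw [AddMonoidHom.mem_ker] at ha ⊢
    rw [hg, ha, map_zero]
  have tf : ∀ b ∈ φ.range, fB b ∈ φ.range := by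
    rintro _ ⟨a, rfl⟩
    exact ⟨f a, hf a⟩
  have tg : ∀ b ∈ φ.range, gB b ∈ φ.range := by
    rintro _ ⟨a, rfl⟩
    exact ⟨g a, hg a⟩
  rw [herbrand_eq_herbrandQuot f g φ.ker hfg hgf sf sg,
    herbrand_eq_herbrandSub fB gB φ.range hfgB hgfB tf tg hcoker, herbrandQuot, herbrandSub,
    idxQuot_ker_eq_idxSub_range φ f g fB gB hf hg, idxQuot_ker_eq_idxSub_range φ g f gB fB hg hf]

end FiniteKerCoker

/-! ### Transport along isomorphisms, products -/

section Transport

variable {B : Type*} [AddCommGroup B]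

theorem idxSub_top (f g : A →+ A) : idxSub f g ⊤ = idx f g := by
  rw [idxSub, idx, inf_top_eq, ← AddMonoidHom.range_eq_map]

/-- The indices are invariant under equivariant isomorphisms. -/
theorem idx_congr (e : A ≃+ B) (f g : A →+ A) (fB gB : B →+ B)
    (hf : ∀ a, e (f a) = fB (e a)) (hg : ∀ a, e (g a) = gB (e a)) :
    idx f g = idx fB gB := by
  have := idx_eq_idxSub e.toAddMonoidHom e.injective f g fB gB hf hg
  rwa [AddMonoidHom.range_eq_top.mpr e.surjective, idxSub_top] at this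

theorem isDefined_congr (e : A ≃+ B) (f g : A →+ A) (fB gB : B →+ B)
    (hf : ∀ a, e (f a) = fB (e a)) (hg : ∀ a, e (g a) = gB (e a)) :
    IsDefined f g ↔ IsDefined fB gB := by
  rw [IsDefined, IsDefined, idx_congr e f g fB gB hf hg, idx_congr e g f gB fB hg hf]

theorem herbrand_congr (e : A ≃+ B) (f g : A →+ A) (fB gB : B →+ B)
    (hf : ∀ a, e (f a) = fB (e a)) (hg : ∀ a, e (g a) = gB (e a)) :
    herbrand f g = herbrand fB gB := by
  rw [herbrand, herbrand, idx_congr e f g fB gB hf hg, idx_congr e g f gB fB hg hf]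

/-- **The Herbrand quotient of a product** is the product of the Herbrand quotients. -/
theorem herbrand_prod (f g : A →+ A) (fB gB : B →+ B)
    (hfg : ∀ a, f (g a) = 0) (hgf : ∀ a, g (f a) = 0)
    (hfgB : ∀ b, fB (gB b) = 0) (hgfB : ∀ b, gB (fB b) = 0)
    (h1 : IsDefined f g) (h2 : IsDefined fB gB) :
    IsDefined (f.prodMap fB) (g.prodMap gB) ∧
      herbrand (f.prodMap fB) (g.prodMap gB) = herbrand f g * herbrand fB gB := by
  have hS : IsSES (AddMonoidHom.inl A B) (AddMonoidHom.snd A B) f g (f.prodMap fB)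
      (g.prodMap gB) fB gB :=
    { inj := fun a b h => by simpa using congrArg Prod.fst h
      surj := Prod.snd_surjective
      exact := by
        ext x
        simp only [AddMonoidHom.mem_range, AddMonoidHom.inl_apply, AddMonoidHom.mem_ker,
          AddMonoidHom.coe_snd]
        constructor
        · rintro ⟨a, rfl⟩
          rfl
        · intro h
          exact ⟨x.1, Prod.ext rfl h.symm⟩
      fg := fun a => by
        simp only [AddMonoidHom.prodMap_def, AddMonoidHom.prod_apply, AddMonoidHom.coe_comp,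
          AddMonoidHom.coe_fst, AddMonoidHom.coe_snd, Function.comp_apply, hfg, hfgB]
        rfl
      gf := fun a => by
        simp only [AddMonoidHom.prodMap_def, AddMonoidHom.prod_apply, AddMonoidHom.coe_comp,
          AddMonoidHom.coe_fst, AddMonoidHom.coe_snd, Function.comp_apply, hgf, hgfB]
        rfl
      f_φ := fun a => by
        simp only [AddMonoidHom.inl_apply, AddMonoidHom.prodMap_def, AddMonoidHom.prod_apply,
          AddMonoidHom.coe_comp, AddMonoidHom.coe_fst, AddMonoidHom.coe_snd, Function.comp_apply,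
          map_zero]
      g_φ := fun a => by
        simp only [AddMonoidHom.inl_apply, AddMonoidHom.prodMap_def, AddMonoidHom.prod_apply,
          AddMonoidHom.coe_comp, AddMonoidHom.coe_fst, AddMonoidHom.coe_snd, Function.comp_apply,
          map_zero]
      f_ψ := fun a => rfl
      g_ψ := fun a => rfl }
  exact hS.isDefined_mid h1 h2

end Transport

/-! ### The cyclic case: `f = σ - 1`, `g = 1 + σ + ⋯ + σ^(n-1)` -/

section Cyclic

/-- `σ - 1` -/
def delta (σ : A →+ A) : A →+ A := σ - AddMonoidHom.id A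

@[simp] theorem delta_apply (σ : A →+ A) (a : A) : delta σ a = σ a - a := rfl

/-- the norm `1 + σ + ⋯ + σ^(n-1)` -/
def nrm (σ : A →+ A) (n : ℕ) : A →+ A where
  toFun a := ∑ i ∈ Finset.range n, σ^[i] a
  map_zero' := by simp only [iterate_map_zero, Finset.sum_const_zero]
  map_add' a b := by simp only [iterate_map_add, Finset.sum_add_distrib]

@[simp] theorem nrm_apply (σ : A →+ A) (n : ℕ) (a : A) :
    nrm σ n a = ∑ i ∈ Finset.range n, σ^[i] a := rfl

theorem delta_nrm (σ : A →+ A) (n : ℕ) (a : A) : delta σ (nrm σ n a) = σ^[n] a - a := by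
  rw [delta_apply, nrm_apply, map_sum, ← Finset.sum_sub_distrib]
  have : ∀ i ∈ Finset.range n, σ (σ^[i] a) - σ^[i] a = σ^[i + 1] a - σ^[i] a := fun i _ => by
    rw [Function.iterate_succ_apply']
  rw [Finset.sum_congr rfl this, Finset.sum_range_sub (fun i => σ^[i] a) n]
  rfl

theorem nrm_delta (σ : A →+ A) (n : ℕ) (a : A) : nrm σ n (delta σ a) = σ^[n] a - a := by
  rw [nrm_apply]
  have : ∀ i ∈ Finset.range n, σ^[i] (delta σ a) = σ^[i + 1] a - σ^[i] a := fun i _ => by
    rw [delta_apply, iterate_map_sub, Function.iterate_succ_apply]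
  rw [Finset.sum_congr rfl this, Finset.sum_range_sub (fun i => σ^[i] a) n]
  rfl

theorem delta_nrm_eq_zero (σ : A →+ A) (n : ℕ) (hσ : ∀ a, σ^[n] a = a) (a : A) :
    delta σ (nrm σ n a) = 0 := by
  rw [delta_nrm, hσ, sub_self]

theorem nrm_delta_eq_zero (σ : A →+ A) (n : ℕ) (hσ : ∀ a, σ^[n] a = a) (a : A) :
    nrm σ n (delta σ a) = 0 := by
  rw [nrm_delta, hσ, sub_self]

/-- The Herbrand quotient `h(⟨σ⟩, A) = |Ĥ⁰| / |H¹|` of a cyclic group of order `n` generated
by `σ`. -/
def hcyc (σ : A →+ A) (n : ℕ) : ℚ := herbrand (delta σ) (nrm σ n)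

theorem idx_zero_left (g : A →+ A) : idx 0 g = g.range.index := by
  rw [idx, AddMonoidHom.ker_zero, AddSubgroup.relIndex_top_right]

theorem idx_zero_right (f : A →+ A) : idx f 0 = Nat.card f.ker := by
  rw [idx, AddMonoidHom.range_zero, AddSubgroup.relIndex_bot_left]

theorem delta_id : delta (AddMonoidHom.id A) = 0 := by
  ext a
  simp

theorem nrm_id_apply (n : ℕ) (a : A) : nrm (AddMonoidHom.id A) n a = n • a := by
  simp [nrm_apply, Function.iterate_fixed]

/-- Trivial action: `Ĥ⁰ = A / nA`. -/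
theorem idx_delta_nrm_id (n : ℕ) :
    idx (delta (AddMonoidHom.id A)) (nrm (AddMonoidHom.id A) n) =
      (nsmulAddMonoidHom (α := A) n).range.index := by
  have : nrm (AddMonoidHom.id A) n = nsmulAddMonoidHom n := by
    ext a
    rw [nrm_id_apply, nsmulAddMonoidHom_apply]
  rw [delta_id, idx_zero_left, this]

/-- Trivial action: `H¹ = A[n]`. -/
theorem idx_nrm_delta_id (n : ℕ) :
    idx (nrm (AddMonoidHom.id A) n) (delta (AddMonoidHom.id A)) =
      Nat.card (nsmulAddMonoidHom (α := A) n).ker := by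
  have : nrm (AddMonoidHom.id A) n = nsmulAddMonoidHom n := by
    ext a
    rw [nrm_id_apply, nsmulAddMonoidHom_apply]
  rw [delta_id, idx_zero_right, this]

/-- **`h(ℤ) = n`** for the trivial action of a cyclic group of order `n`. -/
theorem herbrand_int (n : ℕ) (hn : n ≠ 0) :
    idx (delta (AddMonoidHom.id ℤ)) (nrm (AddMonoidHom.id ℤ) n) = n ∧
    idx (nrm (AddMonoidHom.id ℤ) n) (delta (AddMonoidHom.id ℤ)) = 1 ∧
    IsDefined (delta (AddMonoidHom.id ℤ)) (nrm (AddMonoidHom.id ℤ) n) ∧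
    hcyc (AddMonoidHom.id ℤ) n = n := by
  have h1 : idx (delta (AddMonoidHom.id ℤ)) (nrm (AddMonoidHom.id ℤ) n) = n := by
    rw [idx_delta_nrm_id]
    have : (nsmulAddMonoidHom (α := ℤ) n).range = AddSubgroup.zmultiples (n : ℤ) := by
      ext x
      simp only [AddMonoidHom.mem_range, nsmulAddMonoidHom_apply, nsmul_eq_mul,
        AddSubgroup.mem_zmultiples_iff, smul_eq_mul]
      constructor
      · rintro ⟨y, rfl⟩
        exact ⟨y, mul_comm _ _⟩
      · rintro ⟨y, rfl⟩
        exact ⟨y, mul_comm _ _⟩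
    rw [this, Int.index_zmultiples, Int.natAbs_natCast]
  have h2 : idx (nrm (AddMonoidHom.id ℤ) n) (delta (AddMonoidHom.id ℤ)) = 1 := by
    rw [idx_nrm_delta_id]
    have : (nsmulAddMonoidHom (α := ℤ) n).ker = ⊥ := by
      rw [AddSubgroup.eq_bot_iff_forall]
      intro x hx
      rw [AddMonoidHom.mem_ker, nsmulAddMonoidHom_apply, nsmul_eq_mul] at hx
      rcases mul_eq_zero.mp hx with h | h
      · exact absurd (by exact_mod_cast h) hn
      · exact h
    rw [this]
    exact Nat.card_unique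
  refine ⟨h1, h2, ⟨by rw [h1]; exact hn, by rw [h2]; exact one_ne_zero⟩, ?_⟩
  rw [hcyc, herbrand, h1, h2, Nat.cast_one, div_one]

end Cyclic

end Fermat.Agent.CFT.Herbrand
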