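import Fermat.Agent.CFT.Herbrand

/-
Project C, Layer A4 (continued): Herbrand indices of products.

* `relIndex_pi`, `idx_piMap`, `herbrand_piMap`, `hcyc_piMap`: finite (dependent) products;
* `idx_piMap_eq_one`: arbitrary products of pairs with trivial index;
* `idx_piMap_of_finset`, `herbrand_piMap_of_finset`, `hcyc_piMap_of_finset`: arbitrary products in
  which all factors outside a finite set `T` have trivial indices (restricted-product / idele
  situation `∏_{v ∈ T} ∏_{w ∣ v} L_w^× × ∏_{v ∉ T} ∏_{w ∣ v} U_w`);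
* `idx_prodMap`, `herbrand_prodMap`: binary products with no definedness hypothesis.
-/

set_option autoImplicit false
set_option linter.unusedSectionVars false

noncomputable section

namespace Fermat.Agent.CFT.HerbrandPi

open Fermat.Agent.CFT.Herbrand

variable {ι : Type*} {A : ι → Type*} [∀ i, AddCommGroup (A i)]

/-! ### Indices of product subgroups -/

/-- dependent version of `AddSubgroup.index_pi` -/
theorem index_pi_dep [Fintype ι] (H : ∀ i, AddSubgroup (A i)) :
    (AddSubgroup.pi Set.univ H).index = ∏ i, (H i).index := by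
  simp_rw [AddSubgroup.index, ← Nat.card_pi]
  refine Nat.card_congr
    ((Quotient.congrRight (fun x y ↦ ?_)).trans (Setoid.piQuotientEquiv _).symm)
  rw [QuotientAddGroup.leftRel_pi]

theorem mem_pi_univ (H : ∀ i, AddSubgroup (A i)) (a : ∀ i, A i) :
    a ∈ AddSubgroup.pi Set.univ H ↔ ∀ i, a i ∈ H i := by
  simp [AddSubgroup.mem_pi]

/-- the product of the inclusions `∏ K i → ∏ A i` -/
def inclPi (K : ∀ i, AddSubgroup (A i)) : (∀ i, K i) →+ (∀ i, A i) :=
  AddMonoidHom.piMap fun i => (K i).subtype

theorem range_inclPi (K : ∀ i, AddSubgroup (A i)) :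
    (inclPi K).range = AddSubgroup.pi Set.univ K := by
  ext a
  rw [mem_pi_univ, AddMonoidHom.mem_range]
  constructor
  · rintro ⟨b, rfl⟩ i
    exact (b i).2
  · intro h
    exact ⟨fun i => ⟨a i, h i⟩, rfl⟩

theorem comap_inclPi (H K : ∀ i, AddSubgroup (A i)) :
    (AddSubgroup.pi Set.univ H).comap (inclPi K) =
      AddSubgroup.pi Set.univ fun i => (H i).addSubgroupOf (K i) := by
  ext b
  rw [AddSubgroup.mem_comap, mem_pi_univ, mem_pi_univ]
  rfl

/-- **Relative index of product subgroups** (finite index set). -/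
theorem relIndex_pi [Fintype ι] (H K : ∀ i, AddSubgroup (A i)) :
    (AddSubgroup.pi Set.univ H).relIndex (AddSubgroup.pi Set.univ K) =
      ∏ i, (H i).relIndex (K i) := by
  rw [← range_inclPi K, ← AddSubgroup.index_comap, comap_inclPi, index_pi_dep]
  rfl

/-! ### Kernel and range of a product map -/

theorem ker_piMap (f : ∀ i, A i →+ A i) :
    (AddMonoidHom.piMap f).ker = AddSubgroup.pi Set.univ fun i => (f i).ker := by
  ext a
  rw [AddMonoidHom.mem_ker, mem_pi_univ]
  constructor
  · intro h i
    exact AddMonoidHom.mem_ker.mpr (congrFun h i)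
  · intro h
    ext i
    exact AddMonoidHom.mem_ker.mp (h i)

theorem range_piMap (g : ∀ i, A i →+ A i) :
    (AddMonoidHom.piMap g).range = AddSubgroup.pi Set.univ fun i => (g i).range := by
  ext a
  rw [AddMonoidHom.mem_range, mem_pi_univ]
  constructor
  · rintro ⟨b, rfl⟩ i
    exact ⟨b i, rfl⟩
  · intro h
    choose b hb using h
    exact ⟨b, funext hb⟩

/-- **The indices of a finite product** are the products of the indices. -/
theorem idx_piMap [Fintype ι] (f g : ∀ i, A i →+ A i) :
    idx (AddMonoidHom.piMap f) (AddMonoidHom.piMap g) = ∏ i, idx (f i) (g i) := by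
  rw [idx, ker_piMap, range_piMap, relIndex_pi]
  rfl

/-- An arbitrary product of pairs with trivial index has trivial index. -/
theorem idx_piMap_eq_one (f g : ∀ i, A i →+ A i) (h : ∀ i, idx (f i) (g i) = 1) :
    idx (AddMonoidHom.piMap f) (AddMonoidHom.piMap g) = 1 := by
  rw [idx, ker_piMap, range_piMap, AddSubgroup.relIndex_eq_one]
  intro a ha
  rw [mem_pi_univ] at ha ⊢
  intro i
  exact (AddSubgroup.relIndex_eq_one.mp (h i)) (ha i)

theorem isDefined_piMap [Fintype ι] (f g : ∀ i, A i →+ A i) (h : ∀ i, IsDefined (f i) (g i)) :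
    IsDefined (AddMonoidHom.piMap f) (AddMonoidHom.piMap g) := by
  rw [IsDefined, idx_piMap, idx_piMap]
  exact ⟨Finset.prod_ne_zero_iff.mpr fun i _ => (h i).1,
    Finset.prod_ne_zero_iff.mpr fun i _ => (h i).2⟩

/-- **The Herbrand quotient of a finite product** is the product of the Herbrand quotients. -/
theorem herbrand_piMap [Fintype ι] (f g : ∀ i, A i →+ A i) :
    herbrand (AddMonoidHom.piMap f) (AddMonoidHom.piMap g) = ∏ i, herbrand (f i) (g i) := by
  simp only [herbrand, idx_piMap, Nat.cast_prod, Finset.prod_div_distrib]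

/-! ### The cyclic case -/

theorem delta_piMap (σ : ∀ i, A i →+ A i) :
    delta (AddMonoidHom.piMap σ) = AddMonoidHom.piMap fun i => delta (σ i) := by
  ext a i
  rfl

theorem iterate_piMap (σ : ∀ i, A i →+ A i) (j : ℕ) (a : ∀ i, A i) (i : ι) :
    (AddMonoidHom.piMap σ)^[j] a i = (σ i)^[j] (a i) := by
  induction j generalizing a with
  | zero => rfl
  | succ j ih =>
    rw [Function.iterate_succ_apply, ih, Function.iterate_succ_apply]
    rfl

theorem nrm_piMap (σ : ∀ i, A i →+ A i) (n : ℕ) :
    nrm (AddMonoidHom.piMap σ) n = AddMonoidHom.piMap fun i => nrm (σ i) n := by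
  ext a i
  rw [nrm_apply, Finset.sum_apply]
  simp only [iterate_piMap]
  rfl

theorem hcyc_piMap [Fintype ι] (σ : ∀ i, A i →+ A i) (n : ℕ) :
    hcyc (AddMonoidHom.piMap σ) n = ∏ i, hcyc (σ i) n := by
  simp only [hcyc, delta_piMap, nrm_piMap, herbrand_piMap]

/-! ### Restricted products: all but finitely many factors have trivial index -/

section Restricted

/-- restriction to a finite set of indices -/
def restrictHom (T : Finset ι) : (∀ i, A i) →+ (∀ i : T, A i) where
  toFun a := fun i => a i
  map_zero' := rfl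
  map_add' _ _ := rfl

theorem restrictHom_surjective (T : Finset ι) :
    Function.Surjective (restrictHom (A := A) T) := by
  classical
  intro c
  refine ⟨fun i => if h : i ∈ T then c ⟨i, h⟩ else 0, ?_⟩
  ext i
  simp [restrictHom, i.2]

theorem index_pi_of_finset (T : Finset ι) (H : ∀ i, AddSubgroup (A i))
    (h : ∀ i, i ∉ T → H i = ⊤) :
    (AddSubgroup.pi Set.univ H).index = ∏ i ∈ T, (H i).index := by
  have : AddSubgroup.pi Set.univ H =
      (AddSubgroup.pi Set.univ fun i : T => H i).comap (restrictHom T) := by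
    ext a
    rw [AddSubgroup.mem_comap, mem_pi_univ, mem_pi_univ]
    constructor
    · intro ha i
      exact ha i
    · intro ha i
      by_cases hi : i ∈ T
      · exact ha ⟨i, hi⟩
      · rw [h i hi]
        exact AddSubgroup.mem_top _
  rw [this, AddSubgroup.index_comap_of_surjective _ (restrictHom_surjective T), index_pi_dep,
    Finset.prod_coe_sort T fun i => (H i).index]

theorem relIndex_pi_of_finset (T : Finset ι) (H K : ∀ i, AddSubgroup (A i))
    (h : ∀ i, i ∉ T → K i ≤ H i) :
    (AddSubgroup.pi Set.univ H).relIndex (AddSubgroup.pi Set.univ K) =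
      ∏ i ∈ T, (H i).relIndex (K i) := by
  rw [← range_inclPi K, ← AddSubgroup.index_comap, comap_inclPi,
    index_pi_of_finset T _ fun i hi => ?_]
  · rfl
  · rw [AddSubgroup.addSubgroupOf_eq_top]
    exact h i hi

/-- **The index of a restricted product**: if `[ker fᵢ : im gᵢ] = 1` outside a finite set `T` of
indices, the index of the full product is the product over `T`. -/
theorem idx_piMap_of_finset (T : Finset ι) (f g : ∀ i, A i →+ A i)
    (h : ∀ i, i ∉ T → idx (f i) (g i) = 1) :
    idx (AddMonoidHom.piMap f) (AddMonoidHom.piMap g) = ∏ i ∈ T, idx (f i) (g i) := by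
  rw [idx, ker_piMap, range_piMap, relIndex_pi_of_finset T _ _ fun i hi =>
    AddSubgroup.relIndex_eq_one.mp (h i hi)]
  rfl

theorem herbrand_piMap_of_finset (T : Finset ι) (f g : ∀ i, A i →+ A i)
    (h1 : ∀ i, i ∉ T → idx (f i) (g i) = 1) (h2 : ∀ i, i ∉ T → idx (g i) (f i) = 1) :
    herbrand (AddMonoidHom.piMap f) (AddMonoidHom.piMap g) = ∏ i ∈ T, herbrand (f i) (g i) := by
  simp only [herbrand, idx_piMap_of_finset T f g h1, idx_piMap_of_finset T g f h2, Nat.cast_prod,
    Finset.prod_div_distrib]

theorem isDefined_piMap_of_finset (T : Finset ι) (f g : ∀ i, A i →+ A i)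
    (h1 : ∀ i, i ∉ T → idx (f i) (g i) = 1) (h2 : ∀ i, i ∉ T → idx (g i) (f i) = 1)
    (h : ∀ i ∈ T, IsDefined (f i) (g i)) :
    IsDefined (AddMonoidHom.piMap f) (AddMonoidHom.piMap g) := by
  rw [IsDefined, idx_piMap_of_finset T f g h1, idx_piMap_of_finset T g f h2]
  exact ⟨Finset.prod_ne_zero_iff.mpr fun i hi => (h i hi).1,
    Finset.prod_ne_zero_iff.mpr fun i hi => (h i hi).2⟩

/-- **The Herbrand quotient of a restricted product** (cyclic case). -/
theorem hcyc_piMap_of_finset (T : Finset ι) (σ : ∀ i, A i →+ A i) (n : ℕ)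
    (h1 : ∀ i, i ∉ T → idx (delta (σ i)) (nrm (σ i) n) = 1)
    (h2 : ∀ i, i ∉ T → idx (nrm (σ i) n) (delta (σ i)) = 1) :
    hcyc (AddMonoidHom.piMap σ) n = ∏ i ∈ T, hcyc (σ i) n := by
  simp only [hcyc, delta_piMap, nrm_piMap]
  exact herbrand_piMap_of_finset T _ _ h1 h2

end Restricted

/-! ### Binary products at the level of indices -/

section Binary

variable {B C : Type*} [AddCommGroup B] [AddCommGroup C]

theorem relIndex_prod (H K : AddSubgroup B) (H' K' : AddSubgroup C) :
    (H.prod H').relIndex (K.prod K') = H.relIndex K * H'.relIndex K' := by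
  have hr : (K.subtype.prodMap K'.subtype).range = K.prod K' := by
    ext x
    simp only [AddMonoidHom.mem_range, AddSubgroup.mem_prod]
    constructor
    · rintro ⟨b, rfl⟩
      exact ⟨b.1.2, b.2.2⟩
    · intro h
      exact ⟨(⟨x.1, h.1⟩, ⟨x.2, h.2⟩), rfl⟩
  have hc : (H.prod H').comap (K.subtype.prodMap K'.subtype) =
      (H.addSubgroupOf K).prod (H'.addSubgroupOf K') := by
    ext x
    rfl
  rw [← hr, ← AddSubgroup.index_comap, hc, AddSubgroup.index_prod]
  rfl

/-- **The indices of a binary product** (no definedness hypothesis). -/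
theorem idx_prodMap (f g : B →+ B) (f' g' : C →+ C) :
    idx (f.prodMap f') (g.prodMap g') = idx f g * idx f' g' := by
  rw [idx, AddMonoidHom.ker_prodMap, AddMonoidHom.range_prodMap, relIndex_prod]
  rfl

theorem herbrand_prodMap (f g : B →+ B) (f' g' : C →+ C) :
    herbrand (f.prodMap f') (g.prodMap g') = herbrand f g * herbrand f' g' := by
  simp only [herbrand, idx_prodMap, Nat.cast_mul, mul_div_mul_comm]

end Binary

end Fermat.Agent.CFT.HerbrandPi
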