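import Fermat.Agent.CFT.Herbrand

/-
Project C, Layer A4 (continued): the Herbrand indices of a permutation lattice.

`X`, `Y` finite, `π : Equiv.Perm X` with `π^n = 1`, `p : X → Y` surjective whose fibres are the
`⟨π⟩`-orbits.  On `A = (X → ℤ)` with `(σ f)(x) = f (π⁻¹ x)` (`permHom π`):
`[ker (σ-1) : im N] = ∏_y n / #p⁻¹(y)` (`idx_delta_nrm_permHom`), `[ker N : im (σ-1)] = 1`
(`idx_nrm_delta_permHom`), hence `hcyc = ∏_y n / #p⁻¹(y)` (`hcyc_permHom`).
-/

set_option autoImplicit false
set_option linter.unusedSectionVars false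

noncomputable section

namespace Fermat.Agent.CFT.HerbrandPerm

open Fermat.Agent.CFT.Herbrand

variable {X Y : Type*} [Fintype X] [DecidableEq X] [Fintype Y] [DecidableEq Y]

/-- the permutation action of `π` on `ℤ^X`: `(σ f)(x) = f (π⁻¹ x)` -/
def permHom (π : Equiv.Perm X) : (X → ℤ) →+ (X → ℤ) where
  toFun f := fun x => f (π.symm x)
  map_zero' := rfl
  map_add' _ _ := rfl

@[simp] theorem permHom_apply (π : Equiv.Perm X) (f : X → ℤ) (x : X) :
    permHom π f x = f (π.symm x) := rfl

/-- the basis vector `e_x` -/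
def bas (x : X) : X → ℤ := Pi.single x 1

@[simp] theorem bas_apply (x x' : X) : bas x x' = if x' = x then 1 else 0 := by
  simp [bas, Pi.single_apply]

theorem permHom_bas (π : Equiv.Perm X) (x : X) : permHom π (bas x) = bas (π x) := by
  ext x'
  rw [permHom_apply, bas_apply, bas_apply]
  congr 1
  rw [eq_iff_iff]
  exact π.symm_apply_eq

theorem iterate_permHom_bas (π : Equiv.Perm X) (j : ℕ) (x : X) :
    (permHom π)^[j] (bas x) = bas ((π ^ j) x) := by
  induction j with
  | zero => rfl
  | succ j ih =>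
    rw [Function.iterate_succ_apply', ih, permHom_bas, pow_succ', Equiv.Perm.mul_apply]

theorem sum_smul_bas (f : X → ℤ) : ∑ x, f x • bas x = f := by
  ext x'
  simp [Finset.sum_apply, bas_apply]

/-- pull-back of functions along `p` -/
def pb (p : X → Y) : (Y → ℤ) →+ (X → ℤ) where
  toFun ψ := fun x => ψ (p x)
  map_zero' := rfl
  map_add' _ _ := rfl

@[simp] theorem pb_apply (p : X → Y) (ψ : Y → ℤ) (x : X) : pb p ψ x = ψ (p x) := rfl

theorem pb_injective (p : X → Y) (hsurj : Function.Surjective p) : Function.Injective (pb p) := by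
  intro ψ ψ' h
  ext y
  obtain ⟨x, rfl⟩ := hsurj y
  exact congrFun h x

/-- the number of points of the fibre over `y` -/
def fibreCard (p : X → Y) (y : Y) : ℕ := (Finset.univ.filter fun x => p x = y).card

/-- summation over the fibres -/
def fs (p : X → Y) : (X → ℤ) →+ (Y → ℤ) where
  toFun f := fun y => ∑ x ∈ Finset.univ.filter (fun x => p x = y), f x
  map_zero' := by
    ext y
    simp
  map_add' f g := by
    ext y
    simp [Finset.sum_add_distrib]

@[simp] theorem fs_apply (p : X → Y) (f : X → ℤ) (y : Y) :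
    fs p f y = ∑ x ∈ Finset.univ.filter (fun x => p x = y), f x := rfl

section Main

variable (π : Equiv.Perm X) (p : X → Y) (n : ℕ)
  (hπ : ∀ x, (π ^ n) x = x) (hp : ∀ x, p (π x) = p x)
  (hsurj : Function.Surjective p) (htrans : ∀ x x', p x = p x' → ∃ j : ℕ, (π ^ j) x = x')

include hp in
theorem p_pow (j : ℕ) (x : X) : p ((π ^ j) x) = p x := by
  induction j with
  | zero => rfl
  | succ j ih => rw [pow_succ', Equiv.Perm.mul_apply, hp, ih]

include hp in
theorem p_symm (x : X) : p (π.symm x) = p x := by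
  conv_rhs => rw [← π.apply_symm_apply x, hp]

include hπ in
theorem iterate_permHom_period (f : X → ℤ) : (permHom π)^[n] f = f := by
  conv_lhs => rw [← sum_smul_bas f]
  conv_rhs => rw [← sum_smul_bas f]
  have : ∀ (j : ℕ) (s : Finset X) (F : X → (X → ℤ)),
      (permHom π)^[j] (∑ x ∈ s, F x) = ∑ x ∈ s, (permHom π)^[j] (F x) := by
    intro j
    induction j with
    | zero => intro s F; rfl
    | succ j ih =>
      intro s F
      simp only [Function.iterate_succ_apply', ih, map_sum]
  rw [this]
  refine Finset.sum_congr rfl fun x _ => ?_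
  have h2 : ∀ (j : ℕ) (c : ℤ) (g : X → ℤ), (permHom π)^[j] (c • g) = c • (permHom π)^[j] g := by
    intro j
    induction j with
    | zero => intro c g; rfl
    | succ j ih =>
      intro c g
      simp only [Function.iterate_succ_apply', ih, map_zsmul]
  rw [h2, iterate_permHom_bas, hπ]

/-- `ker (σ - 1)` = functions constant on the fibres -/
theorem ker_delta_permHom (hp : ∀ x, p (π x) = p x) (hsurj : Function.Surjective p)
    (htrans : ∀ x x', p x = p x' → ∃ j : ℕ, (π ^ j) x = x') :
    (delta (permHom π)).ker = (pb p).range := by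
  ext f
  simp only [AddMonoidHom.mem_ker, delta_apply, sub_eq_zero, AddMonoidHom.mem_range]
  constructor
  · intro h
    have h1 : ∀ x, f (π x) = f x := fun x => by
      have := congrFun h (π x)
      rw [permHom_apply, π.symm_apply_apply] at this
      exact this.symm
    have h2 : ∀ (j : ℕ) x, f ((π ^ j) x) = f x := by
      intro j
      induction j with
      | zero => intro x; rfl
      | succ j ih => intro x; rw [pow_succ', Equiv.Perm.mul_apply, h1, ih]
    refine ⟨fun y => f (Function.surjInv hsurj y), ?_⟩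
    ext x
    rw [pb_apply]
    obtain ⟨j, hj⟩ := htrans (Function.surjInv hsurj (p x)) x (Function.surjInv_eq hsurj (p x))
    rw [← h2 j (Function.surjInv hsurj (p x)), hj]
  · rintro ⟨ψ, rfl⟩
    ext x
    rw [permHom_apply, pb_apply, pb_apply, p_symm π p hp]

end Main

section Norm

variable (π : Equiv.Perm X) (p : X → Y) (n : ℕ)

/-- the sum of all values -/
def total : (X → ℤ) →+ ℤ where
  toFun f := ∑ x, f x
  map_zero' := by simp
  map_add' f g := by simp [Finset.sum_add_distrib]

@[simp] theorem total_apply (f : X → ℤ) : total f = ∑ x, f x := rfl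

theorem total_bas (x : X) : total (bas x) = 1 := by
  simp [total_apply, bas_apply]

theorem nrm_permHom_bas (x : X) :
    nrm (permHom π) n (bas x) = ∑ j ∈ Finset.range n, bas ((π ^ j) x) := by
  rw [nrm_apply]
  exact Finset.sum_congr rfl fun j _ => iterate_permHom_bas π j x

theorem total_nrm_bas (x : X) : total (nrm (permHom π) n (bas x)) = n := by
  rw [nrm_permHom_bas, map_sum]
  simp only [total_bas, Finset.sum_const, Finset.card_range, nsmul_eq_mul, mul_one]

theorem nrm_bas_apply_of_ne (hp : ∀ x, p (π x) = p x) (x x' : X) (h : p x' ≠ p x) :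
    nrm (permHom π) n (bas x) x' = 0 := by
  rw [nrm_permHom_bas, Finset.sum_apply]
  refine Finset.sum_eq_zero fun j _ => ?_
  rw [bas_apply, if_neg]
  rintro rfl
  exact h (p_pow π p hp j x)

/-- the multiplicity `n / #fibre` -/
def mult (y : Y) : ℕ := n / fibreCard p y

variable (hπ : ∀ x, (π ^ n) x = x) (hp : ∀ x, p (π x) = p x)
  (hsurj : Function.Surjective p) (htrans : ∀ x x', p x = p x' → ∃ j : ℕ, (π ^ j) x = x')

include hπ hp hsurj htrans

/-- `N e_x = a · 1_{fibre}` with `a · #fibre = n`. -/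
theorem exists_nrm_bas (x : X) :
    ∃ a : ℤ, a * fibreCard p (p x) = n ∧
      nrm (permHom π) n (bas x) = pb p (Pi.single (p x) a) := by
  have hmem : nrm (permHom π) n (bas x) ∈ (delta (permHom π)).ker :=
    AddMonoidHom.mem_ker.mpr
      (delta_nrm_eq_zero (permHom π) n (iterate_permHom_period π n hπ) (bas x))
  rw [ker_delta_permHom π p hp hsurj htrans] at hmem
  obtain ⟨ψ, hψ⟩ := hmem
  have h0 : ∀ y, y ≠ p x → ψ y = 0 := by
    intro y hy
    obtain ⟨x', rfl⟩ := hsurj y
    rw [← pb_apply p ψ x', hψ]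
    exact nrm_bas_apply_of_ne π p n hp x x' hy
  have hψ' : ψ = Pi.single (p x) (ψ (p x)) := by
    ext y
    by_cases hy : y = p x
    · rw [hy, Pi.single_eq_same]
    · rw [Pi.single_eq_of_ne hy, h0 y hy]
  refine ⟨ψ (p x), ?_, ?_⟩
  · have := total_nrm_bas π n x
    rw [← hψ, total_apply] at this
    rw [← this, fibreCard, mul_comm, ← nsmul_eq_mul, ← Finset.sum_const, Finset.sum_filter]
    refine Finset.sum_congr rfl fun x' _ => ?_
    rw [pb_apply]
    split_ifs with h
    · rw [h]
    · exact (h0 _ h).symm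
  · rw [← hψ]
    congr 1

theorem fibreCard_pos (y : Y) : 0 < fibreCard p y := by
  obtain ⟨x, rfl⟩ := hsurj y
  exact Finset.card_pos.mpr ⟨x, by simp⟩

theorem mult_mul_fibreCard (y : Y) : mult p n y * fibreCard p y = n := by
  obtain ⟨x, rfl⟩ := hsurj y
  obtain ⟨a, ha, -⟩ := exists_nrm_bas π p n hπ hp hsurj htrans x
  have hdvd : (fibreCard p (p x) : ℤ) ∣ (n : ℤ) := Dvd.intro_left a ha
  exact Nat.div_mul_cancel (Int.natCast_dvd_natCast.mp hdvd)

theorem nrm_bas (x : X) :
    nrm (permHom π) n (bas x) = pb p (Pi.single (p x) (mult p n (p x) : ℤ)) := by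
  obtain ⟨a, ha, h⟩ := exists_nrm_bas π p n hπ hp hsurj htrans x
  have hc := fibreCard_pos π p n hπ hp hsurj htrans (p x)
  have hm := mult_mul_fibreCard π p n hπ hp hsurj htrans (p x)
  have : a = (mult p n (p x) : ℤ) := by
    have hc' : (fibreCard p (p x) : ℤ) ≠ 0 := by exact_mod_cast hc.ne'
    apply mul_right_cancel₀ hc'
    rw [ha]
    exact_mod_cast hm.symm
  rw [h, this]

/-- `N f = p^*(y ↦ (n / #fibre y) · Σ_{x ∈ fibre y} f x)` -/
theorem nrm_permHom (f : X → ℤ) :
    nrm (permHom π) n f = pb p (fun y => (mult p n y : ℤ) * fs p f y) := by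
  conv_lhs => rw [← sum_smul_bas f, map_sum]
  ext x'
  rw [Finset.sum_apply, pb_apply, fs_apply, Finset.mul_sum, Finset.sum_filter]
  refine Finset.sum_congr rfl fun x _ => ?_
  rw [map_zsmul, nrm_bas π p n hπ hp hsurj htrans, Pi.smul_apply, pb_apply, Pi.single_apply,
    smul_eq_mul]
  split_ifs with h1 h2 h2
  · rw [h1, mul_comm]
  · exact absurd h1.symm h2
  · exact absurd h2.symm h1
  · rw [mul_zero]

end Norm

section Indices

variable (π : Equiv.Perm X) (p : X → Y) (n : ℕ)
  (hπ : ∀ x, (π ^ n) x = x) (hp : ∀ x, p (π x) = p x)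
  (hsurj : Function.Surjective p) (htrans : ∀ x x', p x = p x' → ∃ j : ℕ, (π ^ j) x = x')

/-- the lattice `∏_y (n / #fibre y) ℤ` -/
def multLattice : AddSubgroup (Y → ℤ) :=
  AddSubgroup.pi Set.univ fun y => AddSubgroup.zmultiples (mult p n y : ℤ)

theorem mem_multLattice (ψ : Y → ℤ) :
    ψ ∈ multLattice p n ↔ ∀ y, ∃ k : ℤ, k * (mult p n y : ℤ) = ψ y := by
  simp only [multLattice, AddSubgroup.mem_pi, Set.mem_univ, forall_true_left,
    AddSubgroup.mem_zmultiples_iff, smul_eq_mul]

theorem index_multLattice : (multLattice p n).index = ∏ y, mult p n y := by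
  rw [multLattice, AddSubgroup.index_pi]
  refine Finset.prod_congr rfl fun y _ => ?_
  rw [Int.index_zmultiples, Int.natAbs_natCast]

include hπ hp hsurj htrans

theorem range_nrm_permHom :
    (nrm (permHom π) n).range = (multLattice p n).map (pb p) := by
  ext g
  simp only [AddMonoidHom.mem_range, AddSubgroup.mem_map]
  constructor
  · rintro ⟨f, rfl⟩
    refine ⟨fun y => (mult p n y : ℤ) * fs p f y, ?_, (nrm_permHom π p n hπ hp hsurj htrans f).symm⟩
    rw [mem_multLattice]
    exact fun y => ⟨fs p f y, mul_comm _ _⟩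
  · rintro ⟨ψ, hψ, rfl⟩
    rw [mem_multLattice] at hψ
    choose k hk using hψ
    refine ⟨∑ y, k y • bas (Function.surjInv hsurj y), ?_⟩
    rw [map_sum]
    have : ∀ y ∈ Finset.univ, nrm (permHom π) n (k y • bas (Function.surjInv hsurj y)) =
        pb p (k y • Pi.single y (mult p n y : ℤ)) := by
      intro y _
      rw [map_zsmul, nrm_bas π p n hπ hp hsurj htrans, Function.surjInv_eq hsurj y, map_zsmul]
    rw [Finset.sum_congr rfl this, ← map_sum]
    congr 1
    ext y
    simp [Finset.sum_apply, Pi.single_apply, hk]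

/-- **`Ĥ⁰` of a permutation lattice**: `[ker (σ-1) : im N] = ∏_y n / #fibre y`. -/
theorem idx_delta_nrm_permHom :
    idx (delta (permHom π)) (nrm (permHom π) n) = ∏ y, mult p n y := by
  rw [idx, ker_delta_permHom π p hp hsurj htrans, range_nrm_permHom π p n hπ hp hsurj htrans,
    AddMonoidHom.range_eq_map, AddSubgroup.relIndex_map_map_of_injective _ _
      (pb_injective p hsurj), AddSubgroup.relIndex_top_right, index_multLattice]

omit hπ hp hsurj in
theorem bas_sub_bas_mem_range (x x' : X) (h : p x = p x') :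
    bas x' - bas x ∈ (delta (permHom π)).range := by
  obtain ⟨j, rfl⟩ := htrans x x' h
  refine ⟨nrm (permHom π) j (bas x), ?_⟩
  rw [delta_nrm, iterate_permHom_bas]

theorem ker_nrm_le_range_delta (hn : 0 < n) :
    (nrm (permHom π) n).ker ≤ (delta (permHom π)).range := by
  intro f hf
  rw [AddMonoidHom.mem_ker, nrm_permHom π p n hπ hp hsurj htrans f] at hf
  have hfs : ∀ y, fs p f y = 0 := by
    intro y
    obtain ⟨x, rfl⟩ := hsurj y
    have := congrFun hf x
    rw [pb_apply, Pi.zero_apply] at this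
    rcases mul_eq_zero.mp this with h | h
    · exfalso
      have hm := mult_mul_fibreCard π p n hπ hp hsurj htrans (p x)
      have : mult p n (p x) = 0 := by exact_mod_cast h
      rw [this, zero_mul] at hm
      exact hn.ne hm
    · exact h
  have h2 : ∑ x, f x • bas (Function.surjInv hsurj (p x)) = 0 := by
    rw [← Finset.sum_fiberwise Finset.univ p]
    refine Finset.sum_eq_zero fun y _ => ?_
    have : ∀ x ∈ Finset.univ.filter (fun x => p x = y),
        f x • bas (Function.surjInv hsurj (p x)) = f x • bas (Function.surjInv hsurj y) := by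
      intro x hx
      rw [(Finset.mem_filter.mp hx).2]
    rw [Finset.sum_congr rfl this, ← Finset.sum_smul, ← fs_apply, hfs, zero_smul]
  have h3 : f = ∑ x, f x • (bas x - bas (Function.surjInv hsurj (p x))) := by
    simp only [smul_sub, Finset.sum_sub_distrib, h2, sub_zero, sum_smul_bas]
  rw [h3]
  refine AddSubgroup.sum_mem _ fun x _ => AddSubgroup.zsmul_mem _ ?_ _
  exact bas_sub_bas_mem_range π p htrans _ _ (Function.surjInv_eq hsurj (p x))

/-- **`H¹` of a permutation lattice vanishes**: `[ker N : im (σ-1)] = 1`. -/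
theorem idx_nrm_delta_permHom (hn : 0 < n) :
    idx (nrm (permHom π) n) (delta (permHom π)) = 1 := by
  rw [idx, AddSubgroup.relIndex_eq_one]
  exact ker_nrm_le_range_delta π p n hπ hp hsurj htrans hn

/-- **The Herbrand quotient of a permutation lattice** is `∏_y n / #fibre y`
(`= ∏_v |G_w|`). -/
theorem hcyc_permHom (hn : 0 < n) :
    IsDefined (delta (permHom π)) (nrm (permHom π) n) ∧
      hcyc (permHom π) n = ∏ y, (mult p n y : ℚ) := by
  have h1 := idx_delta_nrm_permHom π p n hπ hp hsurj htrans
  have h2 := idx_nrm_delta_permHom π p n hπ hp hsurj htrans hn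
  have hpos : ∀ y, mult p n y ≠ 0 := by
    intro y h
    have hm := mult_mul_fibreCard π p n hπ hp hsurj htrans y
    rw [h, zero_mul] at hm
    exact hn.ne hm
  refine ⟨⟨?_, ?_⟩, ?_⟩
  · rw [h1]
    exact Finset.prod_ne_zero_iff.mpr fun y _ => hpos y
  · rw [h2]
    exact one_ne_zero
  · rw [hcyc, herbrand, h1, h2, Nat.cast_one, div_one, Nat.cast_prod]

end Indices

section Transitive

variable (π : Equiv.Perm X) (n : ℕ) (hπ : ∀ x, (π ^ n) x = x)
  (htrans : ∀ x x' : X, ∃ j : ℕ, (π ^ j) x = x')

include hπ htrans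

/-- Transitive case: `Ĥ⁰(ℤ[X]) = ℤ / (n / #X)`. -/
theorem idx_delta_nrm_permHom_transitive [Nonempty X] :
    idx (delta (permHom π)) (nrm (permHom π) n) = n / Fintype.card X := by
  have h := idx_delta_nrm_permHom π (fun _ : X => ()) n hπ (fun _ => rfl)
    (fun _ => ⟨Classical.arbitrary X, rfl⟩) (fun x x' _ => htrans x x')
  rw [h, Finset.univ_unique, Finset.prod_singleton, mult, fibreCard]
  simp

/-- Transitive case: `H¹(ℤ[X]) = 0`. -/
theorem idx_nrm_delta_permHom_transitive [Nonempty X] (hn : 0 < n) :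
    idx (nrm (permHom π) n) (delta (permHom π)) = 1 :=
  idx_nrm_delta_permHom π (fun _ : X => ()) n hπ (fun _ => rfl)
    (fun _ => ⟨Classical.arbitrary X, rfl⟩) (fun x x' _ => htrans x x') hn

end Transitive

end Fermat.Agent.CFT.HerbrandPerm
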