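import Fermat.Agent.CFT.Herbrand

/-
Project C, Layer A4 (continued): Shapiro's lemma for the Herbrand indices of a cyclic group.

For `τ : B →+ B` with `τ^m = 1`, the induced module `B^(k+1)` carries the twisted cyclic shift
`shift τ k : (b₀, …, b_k) ↦ (τ b_k, b₀, …, b_{k-1})` of order dividing `(k+1) m`, and
`[ker (σ-1) : im N_σ] = [ker (τ-1) : im N_τ]`, `[ker N_σ : im (σ-1)] = [ker N_τ : im (τ-1)]`
(`idx_delta_nrm_shift`, `idx_nrm_delta_shift`, `hcyc_shift`); `idx_induced` is the same for any
`(A, σ)` which is an internal direct sum `⨁_{r ≤ k} σ^r (ι B)`.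
-/

set_option autoImplicit false

noncomputable section

namespace Fermat.Agent.CFT.HerbrandShapiro

open Fermat.Agent.CFT.Herbrand

variable {A : Type*} [AddCommGroup A]

/-! ### Iterates of an endomorphism -/

/-- iterates of an endomorphism, as a homomorphism -/
def iter (σ : A →+ A) : ℕ → (A →+ A)
  | 0 => AddMonoidHom.id A
  | (r + 1) => σ.comp (iter σ r)

@[simp] theorem iter_apply (σ : A →+ A) (r : ℕ) (a : A) : iter σ r a = σ^[r] a := by
  induction r with
  | zero => rfl
  | succ r ih =>
    rw [Function.iterate_succ_apply', ← ih]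
    rfl

theorem iterate_sum (σ : A →+ A) (r : ℕ) {ι : Type*} (s : Finset ι) (F : ι → A) :
    σ^[r] (∑ i ∈ s, F i) = ∑ i ∈ s, σ^[r] (F i) := by
  simp only [← iter_apply, map_sum]

theorem iterate_iter (σ : A →+ A) (d q : ℕ) (a : A) : (iter σ d)^[q] a = σ^[d * q] a := by
  have : ⇑(iter σ d) = σ^[d] := funext (iter_apply σ d)
  rw [this, ← Function.iterate_mul]

/-- `1 + σ + ⋯ + σ^(dm-1) = (1 + σ^d + ⋯ + σ^(d(m-1))) (1 + σ + ⋯ + σ^(d-1))` -/
theorem nrm_mul (σ : A →+ A) (d m : ℕ) (a : A) :
    nrm σ (d * m) a = nrm (iter σ d) m (nrm σ d a) := by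
  induction m with
  | zero => simp
  | succ m ih =>
    rw [Nat.mul_succ, nrm_apply, Finset.sum_range_add, ← nrm_apply, ih, nrm_apply (iter σ d) (m + 1),
      Finset.sum_range_succ, ← nrm_apply, iterate_iter, nrm_apply σ d, iterate_sum]
    congr 1
    refine Finset.sum_congr rfl fun r _ => ?_
    rw [← Function.iterate_add_apply]

/-- `N ∘ σ = N` when `σ^n = 1`. -/
theorem nrm_comp_self (σ : A →+ A) (n : ℕ) (hσ : ∀ a, σ^[n] a = a) (a : A) :
    nrm σ n (σ a) = nrm σ n a := by
  have := nrm_delta_eq_zero σ n hσ a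
  rw [delta_apply, map_sub, sub_eq_zero] at this
  exact this

/-! ### The induced module `B^(k+1)` with the twisted cyclic shift -/

section Shift

variable {B : Type*} [AddCommGroup B] (τ : B →+ B) (k : ℕ)

/-- The twisted cyclic shift `(b₀, …, b_k) ↦ (τ b_k, b₀, …, b_{k-1})`. -/
def shift : (Fin (k + 1) → B) →+ (Fin (k + 1) → B) where
  toFun b := Fin.cons (τ (b (Fin.last k))) (Fin.init b)
  map_zero' := by
    ext i
    cases i using Fin.cases with
    | zero => simp
    | succ i => simp [Fin.init]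
  map_add' a b := by
    ext i
    cases i using Fin.cases with
    | zero => simp
    | succ i => simp [Fin.init]

@[simp] theorem shift_apply_zero (b : Fin (k + 1) → B) : shift τ k b 0 = τ (b (Fin.last k)) := rfl

@[simp] theorem shift_apply_succ (b : Fin (k + 1) → B) (i : Fin k) :
    shift τ k b i.succ = b i.castSucc := by
  simp [shift, Fin.init]

/-- the `i`-th coordinate embedding -/
def sgl (i : Fin (k + 1)) : B →+ (Fin (k + 1) → B) := AddMonoidHom.single (fun _ => B) i

@[simp] theorem sgl_apply (i j : Fin (k + 1)) (z : B) :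
    sgl k i z j = if j = i then z else 0 := by
  simp [sgl, Pi.single_apply]

theorem shift_sgl_castSucc (i : Fin k) (z : B) :
    shift τ k (sgl k i.castSucc z) = sgl k i.succ z := by
  ext j
  cases j using Fin.cases with
  | zero =>
    rw [shift_apply_zero, sgl_apply, sgl_apply, if_neg (Fin.castSucc_lt_last i).ne',
      if_neg (Fin.succ_ne_zero i).symm, map_zero]
  | succ j =>
    rw [shift_apply_succ, sgl_apply, sgl_apply]
    simp only [Fin.castSucc_inj, Fin.succ_inj]

theorem shift_sgl_last (z : B) :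
    shift τ k (sgl k (Fin.last k) z) = sgl k 0 (τ z) := by
  ext j
  cases j using Fin.cases with
  | zero => rw [shift_apply_zero, sgl_apply, sgl_apply, if_pos rfl, if_pos rfl]
  | succ j =>
    rw [shift_apply_succ, sgl_apply, sgl_apply, if_neg (Fin.castSucc_lt_last j).ne,
      if_neg (Fin.succ_ne_zero j)]

theorem sum_sgl (b : Fin (k + 1) → B) : ∑ i, sgl k i (b i) = b := by
  simpa [sgl] using Finset.univ_sum_single b

/-- `σ^r e₀ = e_r` -/
theorem iterate_shift_sgl_zero (r : ℕ) (hr : r < k + 1) (z : B) :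
    (shift τ k)^[r] (sgl k 0 z) = sgl k ⟨r, hr⟩ z := by
  induction r with
  | zero => rfl
  | succ r ih =>
    rw [Function.iterate_succ_apply', ih (Nat.lt_of_succ_lt hr)]
    exact shift_sgl_castSucc τ k ⟨r, Nat.lt_of_succ_lt_succ hr⟩ z

/-- `σ^(k+1) e₀ = e₀ ∘ τ` -/
theorem iterate_shift_sgl_zero_top (z : B) :
    (shift τ k)^[k + 1] (sgl k 0 z) = sgl k 0 (τ z) := by
  rw [Function.iterate_succ_apply', iterate_shift_sgl_zero τ k k (Nat.lt_succ_self k)]
  exact shift_sgl_last τ k z

/-- `σ^(k+1) e_i = e_i ∘ τ` -/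
theorem iterate_shift_sgl (i : Fin (k + 1)) (z : B) :
    (shift τ k)^[k + 1] (sgl k i z) = sgl k i (τ z) := by
  obtain ⟨r, hr⟩ := i
  rw [← iterate_shift_sgl_zero τ k r hr, ← Function.iterate_add_apply, Nat.add_comm (k + 1) r,
    Function.iterate_add_apply, iterate_shift_sgl_zero_top, iterate_shift_sgl_zero τ k r hr]

/-- `σ^(k+1) = τ` coordinatewise -/
theorem iterate_shift (b : Fin (k + 1) → B) (i : Fin (k + 1)) :
    (shift τ k)^[k + 1] b i = τ (b i) := by
  conv_lhs => rw [← sum_sgl k b, iterate_sum]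
  simp only [iterate_shift_sgl, Finset.sum_apply, sgl_apply, Finset.sum_ite_eq, Finset.mem_univ,
    if_true]

theorem iterate_shift_mul (q : ℕ) (b : Fin (k + 1) → B) (i : Fin (k + 1)) :
    (shift τ k)^[(k + 1) * q] b i = τ^[q] (b i) := by
  induction q generalizing b with
  | zero => rfl
  | succ q ih =>
    rw [Nat.mul_succ, Function.iterate_add_apply, ih, iterate_shift,
      Function.iterate_succ_apply]

/-- `σ` has order dividing `(k+1) m` if `τ` has order dividing `m`. -/
theorem iterate_shift_period (m : ℕ) (hτ : ∀ y, τ^[m] y = y) (b : Fin (k + 1) → B) :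
    (shift τ k)^[(k + 1) * m] b = b := by
  ext i
  rw [iterate_shift_mul, hτ]

end Shift

/-! ### Shapiro's lemma for the Herbrand indices -/

section Shapiro

variable {B : Type*} [AddCommGroup B] (τ : B →+ B) (k m : ℕ)

/-- the diagonal embedding `B → B^(k+1)` -/
def diag : B →+ (Fin (k + 1) → B) where
  toFun y := fun _ => y
  map_zero' := rfl
  map_add' _ _ := rfl

@[simp] theorem diag_apply (y : B) (i : Fin (k + 1)) : diag k y i = y := rfl

theorem diag_injective : Function.Injective (diag (B := B) k) := fun _ _ h => congrFun h 0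

/-- the sum of the coordinates `B^(k+1) → B` -/
def sumHom : (Fin (k + 1) → B) →+ B where
  toFun b := ∑ i, b i
  map_zero' := by simp
  map_add' a b := by simp [Finset.sum_add_distrib]

@[simp] theorem sumHom_apply (b : Fin (k + 1) → B) : sumHom k b = ∑ i, b i := rfl

@[simp] theorem sumHom_sgl (i : Fin (k + 1)) (z : B) : sumHom k (sgl k i z) = z := by
  simp [sumHom_apply, sgl_apply]

theorem sumHom_surjective : Function.Surjective (sumHom (B := B) k) :=
  fun y => ⟨sgl k 0 y, sumHom_sgl k 0 y⟩

theorem sum_sgl_const (y : B) : ∑ i, sgl k i y = diag k y := sum_sgl k (diag k y)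

theorem sumHom_shift (c : Fin (k + 1) → B) :
    sumHom k (shift τ k c) = sumHom k c + delta τ (c (Fin.last k)) := by
  rw [sumHom_apply, sumHom_apply, Fin.sum_univ_succ, Fin.sum_univ_castSucc c, delta_apply,
    shift_apply_zero]
  simp only [shift_apply_succ]
  abel

/-- `ker (σ - 1)` consists of the constant vectors with `τ`-invariant value. -/
theorem ker_delta_shift : (delta (shift τ k)).ker = (delta τ).ker.map (diag k) := by
  ext b
  simp only [AddMonoidHom.mem_ker, delta_apply, sub_eq_zero, AddSubgroup.mem_map]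
  constructor
  · intro h
    have hz : τ (b (Fin.last k)) = b 0 := by
      have := congrFun h 0
      rwa [shift_apply_zero] at this
    have hs : ∀ i : Fin k, b i.castSucc = b i.succ := fun i => by
      have := congrFun h i.succ
      rwa [shift_apply_succ] at this
    have hc : ∀ i : Fin (k + 1), b i = b 0 := by
      intro i
      induction i using Fin.induction with
      | zero => rfl
      | succ i ih => rw [← hs, ih]
    refine ⟨b 0, ?_, ?_⟩
    · rw [← hc (Fin.last k), hz]
      exact (hc _).symm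
    · ext i
      exact (hc i).symm
  · rintro ⟨y, hy, rfl⟩
    ext i
    cases i using Fin.cases with
    | zero => exact hy
    | succ i => rw [shift_apply_succ]; rfl

variable (hτ : ∀ y, τ^[m] y = y)

include hτ

theorem nrm_shift_sgl (i : Fin (k + 1)) (z : B) :
    nrm (shift τ k) ((k + 1) * m) (sgl k i z) = nrm (shift τ k) ((k + 1) * m) (sgl k 0 z) := by
  induction i using Fin.induction with
  | zero => rfl
  | succ i ih =>
    rw [← shift_sgl_castSucc τ k i z,
      nrm_comp_self _ _ (iterate_shift_period τ k m hτ), ih]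

omit hτ in
theorem nrm_shift_sgl_zero (y : B) :
    nrm (shift τ k) ((k + 1) * m) (sgl k 0 y) = diag k (nrm τ m y) := by
  have h1 : nrm (shift τ k) (k + 1) (sgl k 0 y) = diag k y := by
    rw [nrm_apply, Finset.sum_range, ← sum_sgl_const]
    refine Finset.sum_congr rfl fun i _ => ?_
    exact iterate_shift_sgl_zero τ k i.val i.isLt y
  rw [nrm_mul, h1, nrm_apply]
  ext i
  rw [Finset.sum_apply, diag_apply, nrm_apply]
  refine Finset.sum_congr rfl fun q _ => ?_
  rw [iterate_iter, iterate_shift_mul, diag_apply]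

/-- The norm of the induced module is the diagonal of the norm of the sum of the coordinates. -/
theorem nrm_shift (b : Fin (k + 1) → B) :
    nrm (shift τ k) ((k + 1) * m) b = diag k (nrm τ m (sumHom k b)) := by
  conv_lhs => rw [← sum_sgl k b, map_sum]
  simp only [nrm_shift_sgl τ k m hτ]
  rw [← map_sum, ← map_sum, nrm_shift_sgl_zero, sumHom_apply]

theorem range_nrm_shift :
    (nrm (shift τ k) ((k + 1) * m)).range = (nrm τ m).range.map (diag k) := by
  ext b'
  simp only [AddMonoidHom.mem_range, AddSubgroup.mem_map, nrm_shift τ k m hτ]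
  constructor
  · rintro ⟨b, rfl⟩
    exact ⟨_, ⟨sumHom k b, rfl⟩, rfl⟩
  · rintro ⟨_, ⟨y, rfl⟩, rfl⟩
    exact ⟨sgl k 0 y, by rw [sumHom_sgl]⟩

theorem ker_nrm_shift :
    (nrm (shift τ k) ((k + 1) * m)).ker = (nrm τ m).ker.comap (sumHom k) := by
  ext b
  rw [AddMonoidHom.mem_ker, AddSubgroup.mem_comap, AddMonoidHom.mem_ker, nrm_shift τ k m hτ,
    ← map_zero (diag (B := B) k)]
  exact (diag_injective k).eq_iff

omit hτ

theorem sgl_sub_mem_range (i : Fin (k + 1)) (z : B) :
    sgl k i z - sgl k 0 z ∈ (delta (shift τ k)).range := by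
  induction i using Fin.induction with
  | zero =>
    rw [sub_self]
    exact AddSubgroup.zero_mem _
  | succ i ih =>
    have : sgl k i.succ z - sgl k 0 z =
        delta (shift τ k) (sgl k i.castSucc z) + (sgl k i.castSucc z - sgl k 0 z) := by
      rw [delta_apply, shift_sgl_castSucc]
      abel
    rw [this]
    exact AddSubgroup.add_mem _ ⟨_, rfl⟩ ih

theorem sub_sgl_sumHom_mem_range (b : Fin (k + 1) → B) :
    b - sgl k 0 (sumHom k b) ∈ (delta (shift τ k)).range := by
  have : b - sgl k 0 (sumHom k b) = ∑ i, (sgl k i (b i) - sgl k 0 (b i)) := by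
    rw [Finset.sum_sub_distrib, sum_sgl, sumHom_apply, map_sum]
  rw [this]
  exact AddSubgroup.sum_mem _ fun i _ => sgl_sub_mem_range τ k i (b i)

theorem sgl_delta_mem_range (y : B) : sgl k 0 (delta τ y) ∈ (delta (shift τ k)).range := by
  have : sgl k 0 (delta τ y) = delta (shift τ k) (sgl k (Fin.last k) y) +
      (sgl k (Fin.last k) y - sgl k 0 y) := by
    rw [delta_apply, delta_apply, shift_sgl_last, map_sub]
    abel
  rw [this]
  exact AddSubgroup.add_mem _ ⟨_, rfl⟩ (sgl_sub_mem_range τ k _ y)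

/-- `im (σ - 1)` is the preimage of `im (τ - 1)` under the sum of the coordinates. -/
theorem range_delta_shift :
    (delta (shift τ k)).range = (delta τ).range.comap (sumHom k) := by
  ext b
  rw [AddSubgroup.mem_comap]
  constructor
  · rintro ⟨c, rfl⟩
    refine ⟨c (Fin.last k), ?_⟩
    rw [delta_apply (shift τ k), map_sub, sumHom_shift]
    abel
  · rintro ⟨y, hy⟩
    have : b = (b - sgl k 0 (sumHom k b)) + sgl k 0 (delta τ y) := by
      rw [hy]
      abel
    rw [this]
    exact AddSubgroup.add_mem _ (sub_sgl_sumHom_mem_range τ k b) (sgl_delta_mem_range τ k y)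

include hτ

/-- **Shapiro's lemma for `Ĥ⁰`**: `[ker (σ-1) : im N_σ] = [ker (τ-1) : im N_τ]`. -/
theorem idx_delta_nrm_shift :
    idx (delta (shift τ k)) (nrm (shift τ k) ((k + 1) * m)) = idx (delta τ) (nrm τ m) := by
  rw [idx, idx, ker_delta_shift, range_nrm_shift τ k m hτ,
    AddSubgroup.relIndex_map_map_of_injective _ _ (diag_injective k)]

/-- **Shapiro's lemma for `H¹`**: `[ker N_σ : im (σ-1)] = [ker N_τ : im (τ-1)]`. -/
theorem idx_nrm_delta_shift :
    idx (nrm (shift τ k) ((k + 1) * m)) (delta (shift τ k)) = idx (nrm τ m) (delta τ) := by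
  rw [idx, idx, range_delta_shift, ker_nrm_shift τ k m hτ, AddSubgroup.relIndex_comap,
    AddSubgroup.map_comap_eq_self_of_surjective (sumHom_surjective k)]

theorem isDefined_shift_iff :
    IsDefined (delta (shift τ k)) (nrm (shift τ k) ((k + 1) * m)) ↔
      IsDefined (delta τ) (nrm τ m) := by
  rw [IsDefined, IsDefined, idx_delta_nrm_shift τ k m hτ, idx_nrm_delta_shift τ k m hτ]

/-- **Shapiro's lemma for the Herbrand quotient**. -/
theorem hcyc_shift : hcyc (shift τ k) ((k + 1) * m) = hcyc τ m := by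
  rw [hcyc, hcyc, herbrand, herbrand, idx_delta_nrm_shift τ k m hτ, idx_nrm_delta_shift τ k m hτ]

end Shapiro

/-! ### Abstract induced modules -/

section Induced

variable {B : Type*} [AddCommGroup B]

/-- the comparison map `B^(k+1) → A`, `b ↦ Σ_r σ^r (ι (b r))` -/
def indMap (σ : A →+ A) (ι : B →+ A) (k : ℕ) : (Fin (k + 1) → B) →+ A where
  toFun b := ∑ r : Fin (k + 1), σ^[(r : ℕ)] (ι (b r))
  map_zero' := by simp [iterate_map_zero]
  map_add' a b := by simp [iterate_map_add, Finset.sum_add_distrib]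

@[simp] theorem indMap_apply (σ : A →+ A) (ι : B →+ A) (k : ℕ) (b : Fin (k + 1) → B) :
    indMap σ ι k b = ∑ r : Fin (k + 1), σ^[(r : ℕ)] (ι (b r)) := rfl

theorem indMap_shift (σ : A →+ A) (ι : B →+ A) (τ : B →+ B) (k : ℕ)
    (hι : ∀ y, σ^[k + 1] (ι y) = ι (τ y)) (b : Fin (k + 1) → B) :
    indMap σ ι k (shift τ k b) = σ (indMap σ ι k b) := by
  rw [indMap_apply, indMap_apply, map_sum, Fin.sum_univ_succ,
    Fin.sum_univ_castSucc (fun r : Fin (k + 1) => σ (σ^[(r : ℕ)] (ι (b r))))]
  simp only [shift_apply_zero, shift_apply_succ, Fin.val_zero, Function.iterate_zero, id_eq,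
    Fin.val_succ, Fin.val_castSucc, Fin.val_last, ← Function.iterate_succ_apply' σ, hι]
  rw [add_comm]

/-- **Shapiro's lemma for Herbrand indices, abstract form**: if `A = ⨁_{r ≤ k} σ^r (ι B)` and
`σ^(k+1) ∘ ι = ι ∘ τ`, then the indices of `(A, σ)` for the cyclic group of order `(k+1) m` are
those of `(B, τ)` for the cyclic group of order `m`. -/
theorem idx_induced (σ : A →+ A) (ι : B →+ A) (τ : B →+ B) (k m : ℕ) (hτ : ∀ y, τ^[m] y = y)
    (hι : ∀ y, σ^[k + 1] (ι y) = ι (τ y)) (hbij : Function.Bijective (indMap σ ι k)) :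
    idx (delta σ) (nrm σ ((k + 1) * m)) = idx (delta τ) (nrm τ m) ∧
      idx (nrm σ ((k + 1) * m)) (delta σ) = idx (nrm τ m) (delta τ) := by
  let e : (Fin (k + 1) → B) ≃+ A := AddEquiv.ofBijective (indMap σ ι k) hbij
  have he : ∀ b, e b = indMap σ ι k b := fun _ => rfl
  have hsc : Function.Semiconj e (shift τ k) σ := fun b => by
    rw [he, he, indMap_shift σ ι τ k hι]
  have hD : ∀ b, e (delta (shift τ k) b) = delta σ (e b) := fun b => by
    rw [delta_apply, delta_apply, map_sub, hsc.eq]
  have hN : ∀ b, e (nrm (shift τ k) ((k + 1) * m) b) = nrm σ ((k + 1) * m) (e b) := fun b => by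
    rw [nrm_apply, nrm_apply, map_sum]
    exact Finset.sum_congr rfl fun j _ => (hsc.iterate_right j).eq b
  rw [← idx_congr e _ _ _ _ hD hN, ← idx_congr e _ _ _ _ hN hD]
  exact ⟨idx_delta_nrm_shift τ k m hτ, idx_nrm_delta_shift τ k m hτ⟩

end Induced

end Fermat.Agent.CFT.HerbrandShapiro
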