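import Mathlib
import Fermat.Agent.CFT.Herbrand

/-!
# PROJECT C, slice (A4'): Herbrand indices and the cohomology of a finite cyclic group

For a finite cyclic group `G = ⟨g⟩` of order `n` and `A : Rep k G`, with `σ := ρ(g)`:
`#H^{2i+2}(G, A) = idx (σ - 1) N = [ker (σ - 1) : im N]` and
`#H^{2i+1}(G, A) = idx N (σ - 1) = [ker N : im (σ - 1)]`, where `N = 1 + σ + ... + σ^{n-1}`.
-/

set_option autoImplicit false
set_option linter.unusedSectionVars false

noncomputable section

namespace Fermat.Agent.CFT.HerbrandBridge

open CategoryTheory Rep.FiniteCyclicGroup Fermat.Agent.CFT.Herbrand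

universe u

/-- The cardinality of the target of a surjective homomorphism is the index of its kernel. -/
theorem card_eq_index_ker {M N : Type*} [AddCommGroup M] [AddCommGroup N] (φ : M →+ N)
    (hφ : Function.Surjective φ) : Nat.card N = φ.ker.index := by
  rw [AddSubgroup.index_ker, AddMonoidHom.range_eq_top.mpr hφ]
  exact (Nat.card_congr (Equiv.Set.univ N)).symm

variable {k G : Type u} [CommRing k] [CommGroup G] [Fintype G] (A : Rep k G) (g : G)
  (hg : ∀ x, x ∈ Subgroup.zpowers g)

/-- The action of the generator, as an additive endomorphism. -/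
def sig : A →+ A := (A.ρ g).toAddMonoidHom

theorem sig_apply (a : A) : sig A g a = A.ρ g a := rfl

theorem sig_iterate (i : ℕ) (a : A) : (sig A g)^[i] a = A.ρ (g ^ i) a := by
  induction i generalizing a with
  | zero => simp
  | succ i ih =>
    rw [Function.iterate_succ_apply', ih, sig_apply, pow_succ', map_mul]
    rfl

include hg in
theorem orderOf_eq_card : orderOf g = Fintype.card G := by
  rw [← Nat.card_eq_fintype_card]
  exact orderOf_eq_card_of_forall_mem_zpowers hg

include hg in
/-- Herbrand's norm `1 + σ + ... + σ^{n-1}` is the norm of the representation. -/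
theorem nrm_apply_eq_norm (a : A) :
    nrm (sig A g) (Fintype.card G) a = A.norm.hom.toLinearMap a := by
  rw [nrm_apply]
  simp only [sig_iterate]
  show _ = (A.ρ.norm) a
  rw [Representation.norm, LinearMap.sum_apply]
  have hbij : Function.Bijective (fun i : Fin (Fintype.card G) => g ^ (i : ℕ)) := by
    rw [Fintype.bijective_iff_injective_and_card]
    refine ⟨?_, by simp⟩
    intro i j hij
    have := pow_injOn_Iio_orderOf (x := g) (by simp [orderOf_eq_card g hg])
      (by simp [orderOf_eq_card g hg]) hij
    exact Fin.ext this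
  rw [← Fin.sum_univ_eq_sum_range (fun i => A.ρ (g ^ i) a)]
  exact Fintype.sum_bijective _ hbij _ _ (fun i => rfl)

include hg in
theorem sig_iterate_card (a : A) : (sig A g)^[Fintype.card G] a = a := by
  rw [sig_iterate, ← orderOf_eq_card g hg, pow_orderOf_eq_one, map_one]
  rfl

/-- The kernel of `σ - 1`, in the two vocabularies. -/
theorem mem_ker_delta_iff (a : A) :
    a ∈ (delta (sig A g)).ker ↔
      a ∈ LinearMap.ker (Rep.applyAsHom A g - 𝟙 A).hom.toLinearMap := by
  rw [AddMonoidHom.mem_ker, delta_apply, LinearMap.mem_ker]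
  rfl

include hg in
/-- The kernel of the norm, in the two vocabularies. -/
theorem mem_ker_nrm_iff (a : A) :
    a ∈ (nrm (sig A g) (Fintype.card G)).ker ↔ a ∈ LinearMap.ker A.norm.hom.toLinearMap := by
  rw [AddMonoidHom.mem_ker, nrm_apply_eq_norm A g hg, LinearMap.mem_ker]

include hg in
theorem mem_range_nrm_iff (a : A) :
    a ∈ (nrm (sig A g) (Fintype.card G)).range ↔ a ∈ LinearMap.range A.norm.hom.toLinearMap := by
  constructor
  · rintro ⟨b, rfl⟩
    exact ⟨b, (nrm_apply_eq_norm A g hg b).symm⟩
  · rintro ⟨b, rfl⟩
    exact ⟨b, nrm_apply_eq_norm A g hg b⟩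

theorem mem_range_delta_iff (a : A) :
    a ∈ (delta (sig A g)).range ↔
      a ∈ LinearMap.range (Rep.applyAsHom A g - 𝟙 A).hom.toLinearMap := by
  constructor
  · rintro ⟨b, rfl⟩
    exact ⟨b, rfl⟩
  · rintro ⟨b, rfl⟩
    exact ⟨b, rfl⟩

include hg in
/-- **Even degrees**: `#H^{i}(G, A) = [ker (σ - 1) : im N]` for even `i > 0`. -/
theorem card_groupCohomology_even (i : ℕ) [NeZero i] (hi : Even i) :
    Nat.card (groupCohomology A i)
      = idx (delta (sig A g)) (nrm (sig A g) (Fintype.card G)) := by
  -- the quotient map, on `ker (σ - 1)` as an additive subgroup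
  let incl : (delta (sig A g)).ker →+
      LinearMap.ker (Rep.applyAsHom A g - 𝟙 A).hom.toLinearMap :=
    { toFun := fun a => ⟨a.1, (mem_ker_delta_iff A g a.1).mp a.2⟩
      map_zero' := rfl
      map_add' := fun _ _ => rfl }
  let π : LinearMap.ker (Rep.applyAsHom A g - 𝟙 A).hom.toLinearMap →+ groupCohomology A i :=
    (groupCohomologyπEven A g hg i hi).hom.toAddMonoidHom
  have hπ : Function.Surjective π := by
    have : Epi (groupCohomologyπEven A g hg i hi) := by
      unfold groupCohomologyπEven
      have h1 : Epi ((ShortComplex.moduleCatCyclesIso (normHomCompSub A g)).inv) := inferInstance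
      have h2 : Epi ((normHomCompSub A g).homologyπ) := inferInstance
      have h3 : Epi ((groupCohomologyIsoEven A g hg i hi).inv) := inferInstance
      have h4 := epi_comp (normHomCompSub A g).homologyπ (groupCohomologyIsoEven A g hg i hi).inv
      exact @epi_comp _ _ _ _ _ _ h1 _ h4
    exact (ModuleCat.epi_iff_surjective _).mp this
  have hincl : Function.Surjective incl := fun a =>
    ⟨⟨a.1, (mem_ker_delta_iff A g a.1).mpr a.2⟩, rfl⟩
  rw [card_eq_index_ker (π.comp incl) (hπ.comp hincl), idx, AddSubgroup.relIndex]
  congr 1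
  ext a
  rw [AddMonoidHom.mem_ker, AddSubgroup.mem_addSubgroupOf, mem_range_nrm_iff A g hg]
  exact groupCohomologyπEven_eq_zero_iff A g hg i hi (incl a)

include hg in
/-- **Odd degrees**: `#H^{i}(G, A) = [ker N : im (σ - 1)]` for odd `i`. -/
theorem card_groupCohomology_odd (i : ℕ) (hi : Odd i) :
    Nat.card (groupCohomology A i)
      = idx (nrm (sig A g) (Fintype.card G)) (delta (sig A g)) := by
  let incl : (nrm (sig A g) (Fintype.card G)).ker →+ LinearMap.ker A.norm.hom.toLinearMap :=
    { toFun := fun a => ⟨a.1, (mem_ker_nrm_iff A g hg a.1).mp a.2⟩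
      map_zero' := rfl
      map_add' := fun _ _ => rfl }
  let π : LinearMap.ker A.norm.hom.toLinearMap →+ groupCohomology A i :=
    (groupCohomologyπOdd A g hg i hi).hom.toAddMonoidHom
  have hπ : Function.Surjective π := by
    have : Epi (groupCohomologyπOdd A g hg i hi) := by
      unfold groupCohomologyπOdd
      have h1 : Epi ((ShortComplex.moduleCatCyclesIso (subCompNormHom A g)).inv) := inferInstance
      have h2 : Epi ((subCompNormHom A g).homologyπ) := inferInstance
      have h3 : Epi ((groupCohomologyIsoOdd A g hg i hi).inv) := inferInstance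
      have h4 := epi_comp (subCompNormHom A g).homologyπ (groupCohomologyIsoOdd A g hg i hi).inv
      exact @epi_comp _ _ _ _ _ _ h1 _ h4
    exact (ModuleCat.epi_iff_surjective _).mp this
  have hincl : Function.Surjective incl := fun a =>
    ⟨⟨a.1, (mem_ker_nrm_iff A g hg a.1).mpr a.2⟩, rfl⟩
  rw [card_eq_index_ker (π.comp incl) (hπ.comp hincl), idx, AddSubgroup.relIndex]
  congr 1
  ext a
  rw [AddMonoidHom.mem_ker, AddSubgroup.mem_addSubgroupOf, mem_range_delta_iff A g]
  exact groupCohomologyπOdd_eq_zero_iff A g hg i hi (incl a)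

include hg in
/-- The hypotheses `hfg`, `hgf` of the Herbrand machinery for `(σ - 1, N)`. -/
theorem delta_nrm_zero (a : A) :
    delta (sig A g) (nrm (sig A g) (Fintype.card G) a) = 0 :=
  delta_nrm_eq_zero _ _ (sig_iterate_card A g hg) a

include hg in
theorem nrm_delta_zero (a : A) :
    nrm (sig A g) (Fintype.card G) (delta (sig A g) a) = 0 :=
  nrm_delta_eq_zero _ _ (sig_iterate_card A g hg) a

include hg in
/-- **Periodicity** of the cardinalities. -/
theorem card_groupCohomology_add_two (i : ℕ) [NeZero i] :
    Nat.card (groupCohomology A (i + 2)) = Nat.card (groupCohomology A i) := by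
  rcases Nat.even_or_odd i with hi | hi
  · rw [card_groupCohomology_even A g hg (i + 2) (by simpa [Nat.even_add] using hi),
      card_groupCohomology_even A g hg i hi]
  · rw [card_groupCohomology_odd A g hg (i + 2) (by simpa [Nat.odd_add] using hi),
      card_groupCohomology_odd A g hg i hi]

include hg in
/-- The Herbrand quotient of a finite cyclic group is `#H² / #H¹` (both sides are `0` when one of
the groups is infinite). -/
theorem hcyc_eq_card_div_card :
    hcyc (sig A g) (Fintype.card G)
      = (Nat.card (groupCohomology A 2) : ℚ) / (Nat.card (groupCohomology A 1) : ℚ) := by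
  rw [hcyc, herbrand, card_groupCohomology_even A g hg 2 (by decide),
    card_groupCohomology_odd A g hg 1 (by decide)]

include hg in
/-- The Herbrand quotient is defined iff `H¹` and `H²` are finite. -/
theorem isDefined_iff_finite :
    IsDefined (delta (sig A g)) (nrm (sig A g) (Fintype.card G))
      ↔ Finite (groupCohomology A 2) ∧ Finite (groupCohomology A 1) := by
  rw [IsDefined, ← card_groupCohomology_even A g hg 2 (by decide),
    ← card_groupCohomology_odd A g hg 1 (by decide)]
  have h (X : Type u) [AddCommGroup X] : Nat.card X ≠ 0 ↔ Finite X := by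
    constructor
    · intro h
      exact (Nat.card_ne_zero.mp h).2
    · intro h
      exact Nat.card_ne_zero.mpr ⟨⟨0⟩, h⟩
  rw [h, h]

include hg in
/-- `H¹(G, A) = 0` iff every element of norm `0` is of the form `σ b - b`. -/
theorem subsingleton_H1_iff :
    Subsingleton (groupCohomology A 1)
      ↔ idx (nrm (sig A g) (Fintype.card G)) (delta (sig A g)) = 1 := by
  rw [← card_groupCohomology_odd A g hg 1 (by decide), Nat.card_eq_one_iff_unique]
  constructor
  · intro h
    exact ⟨h, ⟨0⟩⟩
  · intro h
    exact h.1

include hg in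
/-- `H¹(G, A) = 0` iff every element of norm `0` is of the form `σ b - b` (elementwise). -/
theorem subsingleton_H1_iff_forall :
    Subsingleton (groupCohomology A 1)
      ↔ ∀ a : A, nrm (sig A g) (Fintype.card G) a = 0 → ∃ b : A, delta (sig A g) b = a := by
  rw [subsingleton_H1_iff A g hg, idx, AddSubgroup.relIndex_eq_one]
  constructor
  · intro h a ha
    exact h ha
  · intro h a ha
    exact h a ha

include hg in
/-- **The cyclic class-formation criterion**: if the Herbrand quotient is `n` and `H¹ = 0`, then
`#H² = n`. -/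
theorem card_H2_eq_of_hcyc_eq {n : ℕ}
    (hq : hcyc (sig A g) (Fintype.card G) = n) (h1 : Subsingleton (groupCohomology A 1)) :
    Nat.card (groupCohomology A 2) = n := by
  rw [hcyc_eq_card_div_card A g hg] at hq
  have : Nat.card (groupCohomology A 1) = 1 := by
    rw [Nat.card_eq_one_iff_unique]
    exact ⟨h1, ⟨0⟩⟩
  rw [this, Nat.cast_one, div_one] at hq
  exact_mod_cast hq

include hg in
/-- Conversely: if `#H² = n · #H¹`-type information is known as `hcyc = n` and `#H² ∣ n`
(second inequality), then `H¹ = 0` and `#H² = n`. -/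
theorem subsingleton_H1_of_hcyc_eq_of_card_H2_le {n : ℕ} (hn : n ≠ 0)
    (hq : hcyc (sig A g) (Fintype.card G) = n)
    (h2 : Nat.card (groupCohomology A 2) ≤ n) (h2' : Finite (groupCohomology A 2)) :
    Subsingleton (groupCohomology A 1) ∧ Nat.card (groupCohomology A 2) = n := by
  rw [hcyc_eq_card_div_card A g hg] at hq
  have hc2 : Nat.card (groupCohomology A 2) ≠ 0 := Nat.card_ne_zero.mpr ⟨⟨0⟩, h2'⟩
  have hc1 : (Nat.card (groupCohomology A 1) : ℚ) ≠ 0 := by
    intro h0
    rw [h0, div_zero] at hq
    exact hn (by exact_mod_cast hq.symm)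
  rw [div_eq_iff hc1] at hq
  have hq' : Nat.card (groupCohomology A 2) = n * Nat.card (groupCohomology A 1) := by
    exact_mod_cast hq
  have hc1' : Nat.card (groupCohomology A 1) ≠ 0 := by exact_mod_cast hc1
  have h1 : Nat.card (groupCohomology A 1) = 1 := by
    have : n * Nat.card (groupCohomology A 1) ≤ n * 1 := by
      rw [← hq', mul_one]; exact h2
    have := Nat.le_of_mul_le_mul_left this (Nat.pos_of_ne_zero hn)
    omega
  refine ⟨(Nat.card_eq_one_iff_unique.mp h1).1, ?_⟩
  rw [hq', h1, mul_one]

/-! ### Multiplicative modules -/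

section Mul

variable {G M : Type} [CommGroup G] [Fintype G] [CommGroup M] [MulDistribMulAction G M] (g : G)

/-- For a multiplicative `G`-module `M`, the endomorphism `σ` of `Additive M` is `m ↦ g • m`. -/
theorem sig_ofMulDistribMulAction :
    sig (Rep.ofMulDistribMulAction G M) g
      = MonoidHom.toAdditive (MulDistribMulAction.toMonoidHom M g) := rfl

theorem sig_ofMulDistribMulAction_apply (m : M) :
    sig (Rep.ofMulDistribMulAction G M) g (Additive.ofMul m) = Additive.ofMul (g • m) := rfl

end Mul

end Fermat.Agent.CFT.HerbrandBridge
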